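import Fermat.Agent.AV.Tors.Geom.Endo
import Fermat.Agent.AV.Tors.Geom.Integral

/-!
# From bounds on the number of torsion points to their exact number

`A[n^k]` has `#A[n]^k` elements, so constants in bounds by `n^(2g)` disappear.
-/

set_option autoImplicit false

noncomputable section

universe u

open CategoryTheory AlgebraicGeometry IsLocalRing NeronModelInfra GoodReductionJacobian

namespace FermatLib.AV.Tors

variable {K : Type u} [Field K] [IsAlgClosed K] {g : ℕ} (A : AVData K g)

/-- The number of `n`-torsion points. -/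
def torsionCount (n : ℕ) : ℕ := Nat.card {x : A.Pt K // n • x = 0}

theorem torsionCount_mul {n : ℕ} (hn : (n : K) ≠ 0) (m : ℕ) :
    torsionCount A (n * m) = torsionCount A n * torsionCount A m := by
  obtain ⟨φ, hφ⟩ := exists_nsmulEndo A n hn
  let f : (nsmulAddMonoidHom (α := A.Pt K) (n * m)).ker →+ (nsmulAddMonoidHom (α := A.Pt K) m).ker :=
    AddMonoidHom.codRestrict ((nsmulAddMonoidHom n).comp (AddSubgroup.subtype _)) _ fun x => by
      show m • n • (x : A.Pt K) = 0
      rw [← mul_nsmul]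
      exact x.2
  have hf : Function.Surjective f := fun y => by
    obtain ⟨q, hq⟩ := nsmul_surjective hn φ hφ K y.1
    refine ⟨⟨q, ?_⟩, Subtype.ext hq⟩
    show (n * m) • q = 0
    rw [mul_nsmul, hq]
    exact y.2
  have e : Nat.card f.ker = torsionCount A n := by
    refine Nat.card_congr ⟨fun x => ⟨x.1.1, congrArg Subtype.val x.2⟩,
      fun x => ⟨⟨x.1, ?_⟩, Subtype.ext x.2⟩, fun _ => rfl, fun _ => rfl⟩
    show (n * m) • x.1 = 0
    rw [mul_nsmul, x.2, smul_zero]
  have h : Nat.card (nsmulAddMonoidHom (α := A.Pt K) (n * m)).ker =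
      Nat.card f.ker * Nat.card (nsmulAddMonoidHom (α := A.Pt K) m).ker := by
    rw [AddSubgroup.card_eq_card_quotient_mul_card_addSubgroup f.ker, mul_comm]
    congr 1
    exact Nat.card_congr (QuotientAddGroup.quotientKerEquivOfSurjective f hf).toEquiv
  rw [e] at h
  exact h

theorem torsionCount_pow {n : ℕ} (hn : (n : K) ≠ 0) (k : ℕ) :
    torsionCount A (n ^ k) = torsionCount A n ^ k := by
  induction k with
  | zero =>
    rw [pow_zero, pow_zero, torsionCount]
    refine Nat.card_eq_one_iff_unique.mpr ⟨⟨fun a b => Subtype.ext ?_⟩, ⟨⟨0, by simp⟩⟩⟩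
    rw [← one_nsmul a.1, ← one_nsmul b.1, a.2, b.2]
  | succ k ih => rw [pow_succ', torsionCount_mul A hn, ih, pow_succ']

theorem le_of_pow_le_mul_pow {a b C : ℕ} (h : ∀ k, a ^ k ≤ C * b ^ k) : a ≤ b := by
  by_contra hlt
  push Not at hlt
  rcases Nat.eq_zero_or_pos b with rfl | hb
  · have := h 1
    simp at this
    omega
  obtain ⟨k, hk⟩ := pow_unbounded_of_one_lt (C : ℚ)
    (show (1 : ℚ) < (a : ℚ) / b by rw [one_lt_div (by exact_mod_cast hb)]; exact_mod_cast hlt)
  rw [div_pow, lt_div_iff₀ (by positivity)] at hk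
  exact absurd (h k) (not_le.mpr (by exact_mod_cast hk))

/-- A variety of dimension zero has one rational point. -/
theorem subsingleton_pt_of_eq_zero (hg : g = 0) : Subsingleton (A.Pt K) := by
  refine ⟨fun x y => A.centre_injective ?_⟩
  suffices h : ∀ x : A.Pt K, A.centre x = genericPoint A.X from (h x).trans (h y).symm
  intro x
  obtain ⟨-, t, ht⟩ := exists_isCoordinates A x
  subst hg
  have hbot : maximalIdeal (A.X.presheaf.stalk (A.centre x)) = ⊥ := by
    rw [← ht.span_eq, show Set.range t = ∅ from Set.range_eq_empty t, Ideal.span_empty]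
  have hF : IsField (A.X.presheaf.stalk (A.centre x)) :=
    IsLocalRing.isField_iff_maximalIdeal_eq.mpr hbot
  let := hF.toField
  have hx : genericPoint A.X ∈ Set.range (A.X.fromSpecStalk (A.centre x)) := by
    rw [Scheme.range_fromSpecStalk]; exact genericPoint_specializes _
  obtain ⟨p, hp⟩ := hx
  have hpc : p = closedPoint _ := by
    refine PrimeSpectrum.ext ?_
    refine ((Ideal.eq_bot_or_top p.asIdeal).resolve_right p.isPrime.ne_top).trans hbot.symm
  rw [← hp, hpc]
  exact Scheme.fromSpecStalk_closedPoint.symm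

/-- The count of the torsion points from bounds up to constants. -/
theorem natCard_torsion_of_bounds {n : ℕ} (hn : (n : K) ≠ 0)
    (hU : 0 < g → ∃ C : ℕ, ∀ m : ℕ, (m : K) ≠ 0 → torsionCount A m ≤ C * m ^ (2 * g))
    (hL : 0 < g → ∃ C : ℕ, ∀ m : ℕ, (m : K) ≠ 0 → m ^ (2 * g) ≤ C * torsionCount A m) :
    Nat.card {x : SchemeHomOver (𝟙 (Spec (CommRingCat.of K))) A.str //
        A.law.IsTorsionPoint (𝟙 (Spec (CommRingCat.of K))) n x} = n ^ (2 * g) := by
  rw [A.natCard_isTorsionPoint]
  show torsionCount A n = _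
  rcases Nat.eq_zero_or_pos g with hg | hg
  · have := subsingleton_pt_of_eq_zero A hg
    subst hg
    rw [mul_zero, pow_zero, torsionCount]
    exact Nat.card_eq_one_iff_unique.mpr ⟨inferInstance, ⟨⟨0, smul_zero n⟩⟩⟩
  obtain ⟨C, hC⟩ := hU hg
  obtain ⟨D, hD⟩ := hL hg
  have hnk : ∀ k : ℕ, ((n ^ k : ℕ) : K) ≠ 0 := fun k => by
    rw [Nat.cast_pow]; exact pow_ne_zero k hn
  refine le_antisymm (le_of_pow_le_mul_pow (C := C) fun k => ?_)
    (le_of_pow_le_mul_pow (C := D) fun k => ?_)
  · rw [← torsionCount_pow A hn, ← pow_mul, mul_comm (2 * g), pow_mul]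
    exact hC _ (hnk k)
  · rw [← torsionCount_pow A hn, ← pow_mul, mul_comm (2 * g), pow_mul]
    exact hD _ (hnk k)

end FermatLib.AV.Tors
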