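import Fermat.Agent.AV.Tors.Height.Degree
import Fermat.Agent.AV.Tors.Geom.Params
import Fermat.Agent.Curve.PoleDegree

/-!
# Counting torsion points: generalities

Evaluation of algebraic relations, orders of values of jets, effective pullbacks.
-/

set_option autoImplicit false

noncomputable section

universe u

open CategoryTheory AlgebraicGeometry IsLocalRing AlgebraicCurve MvPolynomial TopologicalSpace

namespace FermatLib.AV.Tors

variable {K : Type u} [Field K] {g : ℕ} {A : AVData K g} {F : Type u} [Field F] [Algebra K F]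

theorem exists_eval_ne_zero [Infinite K] {a : MvPolynomial (Fin g) K} (ha : a ≠ 0) :
    ∃ w : Fin g → K, eval w a ≠ 0 := by
  by_contra! h
  exact ha (MvPolynomial.funext fun w => by simpa using h w)

/-- A polynomial not vanishing at `w` does not vanish identically on the line through `w`. -/
theorem aeval_line_ne_zero {a : MvPolynomial (Fin g) K} {w : Fin g → K} (ha : eval w a ≠ 0) :
    aeval (fun i => Polynomial.C (w i) * Polynomial.X) a ≠ 0 := by
  intro h
  apply ha
  have h1 := congrArg (Polynomial.aeval (1 : K)) h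
  rw [map_zero, ← AlgHom.comp_apply, comp_aeval] at h1
  simpa [Function.comp_def, aeval_eq_eval] using h1

/-- An algebraic relation of a nonzero element can be chosen with nonzero constant term. -/
theorem exists_relation_coeff_zero_ne {R L : Type u} [CommRing R] [IsDomain R] [Field L]
    (f : R →+* L) {z : L} (hz : z ≠ 0) {Φ : Polynomial R} (hΦ : Φ ≠ 0)
    (h : Φ.eval₂ f z = 0) : ∃ Ψ : Polynomial R, Ψ.coeff 0 ≠ 0 ∧ Ψ.eval₂ f z = 0 := by
  obtain ⟨Ψ, hΨ, hdvd⟩ := Polynomial.exists_eq_pow_rootMultiplicity_mul_and_not_dvd Φ hΦ 0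
  simp only [map_zero, sub_zero] at hΨ hdvd
  refine ⟨Ψ, fun h0 => hdvd (Polynomial.X_dvd_iff.mpr h0), ?_⟩
  rw [hΨ, Polynomial.eval₂_mul, Polynomial.eval₂_X_pow, mul_eq_zero] at h
  exact h.resolve_left (pow_ne_zero _ hz)

/-- Relations between functions regular at the centre hold between their values. -/
theorem evalAt_relation (p : A.Pt F) {t : Fin g → A.FA} (ht : ∀ i, t i ∈ A.localRing (A.centre p))
    {z : A.FA} (hz : z ∈ A.localRing (A.centre p)) {Ψ : Polynomial (MvPolynomial (Fin g) K)}
    (h : Ψ.eval₂ (aeval (R := K) t).toRingHom z = 0) :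
    Ψ.eval₂ (aeval (R := K) fun i => A.evalAt p (t i)).toRingHom (A.evalAt p z) = 0 := by
  let t' : Fin g → A.localRing (A.centre p) := fun i => ⟨t i, ht i⟩
  have h1 : (A.localRing (A.centre p)).val.comp (aeval t') = aeval t := comp_aeval t' _
  have h2 : (A.evalHom p).comp (aeval t') = aeval fun i => A.evalAt p (t i) := by
    rw [comp_aeval]
    congr 1
    funext i
    exact (A.evalAt_of_mem (ht i)).symm
  have h3 : Ψ.eval₂ (aeval (R := K) t').toRingHom ⟨z, hz⟩ = 0 := by
    apply Subtype.val_injective
    have := Polynomial.hom_eval₂ Ψ (aeval (R := K) t').toRingHom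
      (A.localRing (A.centre p)).val.toRingHom ⟨z, hz⟩
    rw [show (A.localRing (A.centre p)).val.toRingHom.comp (aeval (R := K) t').toRingHom
      = (aeval (R := K) t).toRingHom from congrArg AlgHom.toRingHom h1] at this
    exact this.trans h
  have h4 := congrArg (A.evalHom p).toRingHom h3
  rw [Polynomial.hom_eval₂, show (A.evalHom p).toRingHom.comp (aeval (R := K) t').toRingHom
      = (aeval (R := K) fun i => A.evalAt p (t i)).toRingHom from congrArg AlgHom.toRingHom h2,
    map_zero] at h4
  rw [A.evalAt_of_mem hz]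
  exact h4

/-- A function with a relation whose constant term survives at `p` does not vanish at `p`. -/
theorem evalAt_ne_zero_of_relation (p : A.Pt F) {t : Fin g → A.FA}
    (ht : ∀ i, t i ∈ A.localRing (A.centre p)) {z : A.FA} (hz : z ∈ A.localRing (A.centre p))
    {Ψ : Polynomial (MvPolynomial (Fin g) K)} (h : Ψ.eval₂ (aeval (R := K) t).toRingHom z = 0)
    (h0 : aeval (R := K) (fun i => A.evalAt p (t i)) (Ψ.coeff 0) ≠ 0) : A.evalAt p z ≠ 0 := by
  intro he
  have := evalAt_relation p ht hz h
  rw [he, Polynomial.eval₂_at_zero] at this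
  exact h0 this

variable (A) in
theorem isUnitAt_evalAt_ne_zero {p : A.Pt F} {z : A.FA} (hz : A.IsUnitAt (A.centre p) z) :
    A.evalAt p z ≠ 0 :=
  hz.isUnit_evalAt.ne_zero

/-- Values at `p` of sections: moving between two points above the generic centre. -/
theorem evalAt_section_eq_zero_iff (D : CartierDiv A) (p : A.Pt F) {x : A.X}
    (hx : A.centre p ⤳ x) {s : A.FA} (hs : s ∈ D.sections) :
    A.evalAt p (s * D.eqn (A.centre p)) = 0 ↔ A.evalAt p (s * D.eqn x) = 0 := by
  have hu := D.isUnitAt_of_specializes hx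
  have : s * D.eqn x = s * D.eqn (A.centre p) * (D.eqn x / D.eqn (A.centre p)) := by
    field_simp [D.eqn_ne_zero]
  rw [this, A.evalAt_mul (hs _) hu.2.1, mul_eq_zero, or_iff_left (isUnitAt_evalAt_ne_zero A hu)]

section function_field

variable [IsAlgClosed K] [Curve.IsFunctionField K F]

/-- The values of jets of high order vanish to high order. -/
theorem evalAt_mem_ordGE_of_mem_pow (p : A.Pt F) (v : Place K F) {x : A.X}
    (hx : placeCentre p v = x) (I : Ideal (A.X.presheaf.stalk x)) (e : ℕ)
    (he : ∀ s ∈ I, A.evalAt p (algebraMap _ A.FA s) ∈ Curve.ordGE v (e : ℤ)) (N : ℕ)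
    {s : A.X.presheaf.stalk x} (hs : s ∈ I ^ N) :
    A.evalAt p (algebraMap _ A.FA s) ∈ Curve.ordGE v ((N * e : ℕ) : ℤ) := by
  subst hx
  have h : A.centre p ⤳ placeCentre p v := A.centre_specializes_centreAt _ _ p
  have h0 : ∀ s, A.stalkTo p _ h s ∈ Curve.ordGE v 0 := fun s => by
    rw [A.stalkTo_apply, ← Curve.mem_valuationSubring_iff]
    exact A.evalAt_mem v.toValuationSubring (place_algebraMap_mem v) p ⟨s, rfl⟩
  rw [← A.stalkTo_apply p _ h]
  induction N generalizing s with
  | zero => rw [Nat.zero_mul, Nat.cast_zero]; exact h0 s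
  | succ N ih =>
    rw [pow_succ] at hs
    refine Submodule.mul_induction_on hs (fun a ha b hb => ?_) fun a b ha hb => ?_
    · rw [map_mul, Nat.succ_mul, Nat.cast_add]
      refine Curve.mul_mem_ordGE (ih ha) ?_
      rw [A.stalkTo_apply]
      exact he b hb
    · rw [map_add]
      exact add_mem ha hb

/-- Jets at the centre of a place vanish at the place. -/
theorem evalAt_mem_ordGE_one (p : A.Pt F) (v : Place K F) {x : A.X} (hx : placeCentre p v = x)
    {s : A.X.presheaf.stalk x} (hs : s ∈ maximalIdeal (A.X.presheaf.stalk x)) :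
    A.evalAt p (algebraMap _ A.FA s) ∈ Curve.ordGE v 1 := by
  subst hx
  have hz : algebraMap _ A.FA s ∈ A.localRing (placeCentre p v) := ⟨s, rfl⟩
  set q := A.extend v.toValuationSubring (place_algebraMap_mem v) p with hq
  rw [A.evalAt_eq_evalAt_extend v.toValuationSubring (place_algebraMap_mem v) p hz]
  have hev : A.evalAt q (algebraMap _ A.FA s) = A.stalkEval q s := A.evalAt_algebraMap_stalk q s
  rw [hev]
  set a := A.stalkEval q s with ha
  have hna : ¬ IsUnit a := fun hu =>
    (mem_maximalIdeal s).mp hs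
      (IsLocalHom.map_nonunit (self := Scheme.isLocalHom_stalkClosedPointTo' q.1) s hu)
  set w : v.toValuationSubring := ⟨(a : F), a.2⟩ with hw
  have hnu : ¬ IsUnit w := fun hu => hna <| by
    obtain ⟨b, hb⟩ := isUnit_iff_exists_inv.mp hu
    exact .of_mul_eq_one ⟨(b : F), b.2⟩ (Subtype.ext (congrArg Subtype.val hb :))
  show (w : F) ∈ _
  rcases eq_or_ne (w : F) 0 with h0 | h0
  · rw [h0]; exact zero_mem _
  have hle : (w : F) ∈ Curve.ordGE v 0 := (Curve.mem_valuationSubring_iff v).mp w.2
  refine Curve.mem_ordGE_of_le (le_of_not_gt fun hlt => hnu ?_)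
  have hord : v.ord (w : F) = 0 := by
    have := Curve.le_ord_of_mem hle h0
    omega
  rw [← v.adicValuation_coe_eq_one_iff, v.adicValuation_eq_exp_neg_ord h0, hord]
  rfl

/-- The value of a section not vanishing at the generic centre: effective pullback of degree the
height. -/
theorem sum_ord_le_height (D : CartierDiv A) (p : A.Pt F) {s : A.FA} (hs : s ∈ D.sections)
    (h0 : A.evalAt p (s * D.eqn (A.centre p)) ≠ 0) (S : Finset (Place K F)) :
    ∑ v ∈ S, v.ord (A.evalAt p (s * D.eqn (placeCentre p v))) ≤ height K D p := by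
  classical
  set E : Divisor K F := Curve.divOf (A.evalAt p (s * D.eqn (A.centre p))) + pullDiv K D p
  have hE : ∀ v, E v = v.ord (A.evalAt p (s * D.eqn (placeCentre p v))) ∧ 0 ≤ E v := fun v => by
    obtain ⟨h1, h2⟩ := nonneg_of_mem_sections D p v hs h0
    exact ⟨h2, h1⟩
  have hdeg : Divisor.degree E = height K D p := by
    rw [map_add, Curve.degree_divOf, zero_add]; rfl
  rw [← hdeg, Divisor.degree, Finsupp.liftAddHom_apply, Finsupp.sum]
  calc ∑ v ∈ S, v.ord (A.evalAt p (s * D.eqn (placeCentre p v)))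
      = ∑ v ∈ S, E v := Finset.sum_congr rfl fun v _ => (hE v).1.symm
    _ ≤ ∑ v ∈ S ∪ E.support, E v :=
        Finset.sum_le_sum_of_subset_of_nonneg Finset.subset_union_left fun v _ _ => (hE v).2
    _ = ∑ v ∈ E.support, E v := (Finset.sum_subset Finset.subset_union_right fun v _ hv =>
        Finsupp.notMem_support_iff.mp hv).symm
    _ = _ := Finset.sum_congr rfl fun v _ => by simp [Curve.deg_eq_one v]

end function_field

end FermatLib.AV.Tors
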