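import Fermat.Agent.AV.Tors.Geom.Endo
import Fermat.Agent.AV.Tors.Height.Extend

/-!
# Preimages under multiplication by `n` over finite extensions

A point with values in an algebraic extension has values in a finite one, as an affine chart is of
finite type; hence points can be divided by `n` over finite extensions.
-/

set_option autoImplicit false

noncomputable section

universe u

open CategoryTheory AlgebraicGeometry IsLocalRing

namespace FermatLib.AV.Tors

variable {K : Type u} [Field K] {g : ℕ} {A : AVData K g}

theorem secEval_constSection {R : Type u} [CommRing R] [Algebra K R] [IsLocalRing R]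
    (p : A.Pt R) {V : A.X.Opens} (hV : A.centre p ∈ V) (c : K) :
    A.secEval p V hV (constSection A.str V c) = algebraMap K R c := by
  rw [constSection_eq]
  refine Eq.trans ?_ (A.secEval_constTop p c)
  show (A.X.presheaf.map _ ≫ p.1.appLE V ⊤ _ ≫ (Scheme.ΓSpecIso _).hom) _ = _
  rw [Scheme.Hom.map_appLE_assoc]
  rfl

theorem pointOfHom_secEval {R : Type u} [CommRing R] [Algebra K R] [IsLocalRing R]
    (p : A.Pt R) {V : A.X.Opens} (hV : IsAffineOpen V) (hp : A.centre p ∈ V) :
    Spec.map (CommRingCat.ofHom (A.secEval p V hp)) ≫ hV.fromSpec = p.1 := by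
  have h2 := IsAffineOpen.SpecMap_appLE_fromSpec p.1 hV (isAffineOpen_top _)
    (A.preimage_eq_top p hp).ge
  rw [IsAffineOpen.fromSpec_top, Scheme.isoSpec_Spec_inv] at h2
  show Spec.map (p.1.appLE V ⊤ (A.preimage_eq_top p hp).ge ≫
    (Scheme.ΓSpecIso (CommRingCat.of R)).hom) ≫ hV.fromSpec = p.1
  rw [Spec.map_comp_assoc, h2, ← Category.assoc, ← Spec.map_comp, Iso.inv_hom_id,
    Spec.map_id, Category.id_comp]

/-- Extending the field of values of points is injective. -/
theorem pt_map_injective {F F' : Type u} [Field F] [Algebra K F] [Field F'] [Algebra K F']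
    (ψ : F →ₐ[K] F') : Function.Injective (A.map ψ) := by
  intro p q h
  have : IsLocalHom ψ.toRingHom :=
    ⟨fun a ha => isUnit_iff_ne_zero.mpr fun h0 => by simp [h0] at ha⟩
  have hc : A.centre q = A.centre p := by rw [← A.centre_map ψ q, ← h, A.centre_map ψ p]
  refine A.pt_ext (A.centre p) specializes_rfl (specializes_of_eq hc) fun z hz => ?_
  refine ψ.injective ?_
  show ψ _ = ψ _
  rw [← A.evalAt_map ψ p hz, h, A.evalAt_map ψ q (hc ▸ hz)]

/-- A point with values in an algebraic extension has values in a finite one. -/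
theorem exists_finite_model {F L : Type u} [Field F] [Field L] [Algebra K F] [Algebra K L]
    [Algebra F L] [IsScalarTower K F L] [Algebra.IsAlgebraic F L] (q : A.Pt L) :
    ∃ F' : IntermediateField F L, FiniteDimensional F F' ∧
      ∃ q' : A.Pt F', A.map (F'.val.restrictScalars K) q' = q := by
  obtain ⟨V, hV, hqV, hs⟩ := exists_standardSmooth_chart A.str g (A.centre q)
  let : Algebra K Γ(A.X, V) := (constSection A.str V).toAlgebra
  have : Algebra.IsStandardSmoothOfRelativeDimension g K Γ(A.X, V) := hs
  have : Algebra.IsStandardSmooth K Γ(A.X, V) :=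
    Algebra.IsStandardSmoothOfRelativeDimension.isStandardSmooth g
  obtain ⟨s, hs'⟩ := Algebra.FiniteType.out (R := K) (A := Γ(A.X, V))
  classical
  set S : Finset L := s.image (A.secEval q V hqV)
  set F' : IntermediateField F L := IntermediateField.adjoin F (S : Set L)
  have hmem : ∀ y, A.secEval q V hqV y ∈ F' := fun y => by
    have hy : y ∈ Algebra.adjoin K (s : Set Γ(A.X, V)) := hs' ▸ Algebra.mem_top
    induction hy using Algebra.adjoin_induction with
    | mem y hy =>
      exact IntermediateField.subset_adjoin F _ (Finset.mem_image_of_mem _ hy)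
    | algebraMap c =>
      rw [show A.secEval q V hqV (algebraMap K _ c) = algebraMap K L c from
        secEval_constSection q hqV c, IsScalarTower.algebraMap_apply K F L]
      exact F'.algebraMap_mem _
    | add a b _ _ ha hb => rw [map_add]; exact add_mem ha hb
    | mul a b _ _ ha hb => rw [map_mul]; exact mul_mem ha hb
  refine ⟨F', IntermediateField.finiteDimensional_adjoin
    fun x _ => Algebra.IsIntegral.isIntegral x,
    A.pointOfHom hV ((A.secEval q V hqV).codRestrict F'.toSubalgebra.toSubring hmem)
      fun c => Subtype.ext (secEval_constSection q hqV c), ?_⟩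
  apply Subtype.ext
  refine Eq.trans ?_ (pointOfHom_secEval q hV hqV)
  show Spec.map _ ≫ Spec.map _ ≫ hV.fromSpec = _
  rw [← Spec.map_comp_assoc]
  rfl

variable [IsAlgClosed K] in
/-- Points can be divided by `n` over finite extensions. -/
theorem exists_nsmul_preimage {n : ℕ} (hn : (n : K) ≠ 0) (φ : DomEndo A)
    (hφ : ∀ (R : Type u) [CommRing R] [Algebra K R] (p : A.Pt R), φ.act p = n • p)
    {F : Type u} [Field F] [Algebra K F] (p : A.Pt F) :
    ∃ F' : IntermediateField F (AlgebraicClosure F), FiniteDimensional F F' ∧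
      ∃ p' : A.Pt F', n • p' = A.map (IsScalarTower.toAlgHom K F F') p := by
  obtain ⟨q, hq⟩ := nsmul_surjective hn φ hφ (AlgebraicClosure F)
    (A.map (IsScalarTower.toAlgHom K F (AlgebraicClosure F)) p)
  obtain ⟨F', hfin, q', rfl⟩ := exists_finite_model (F := F) q
  refine ⟨F', hfin, q', pt_map_injective (F'.val.restrictScalars K) ?_⟩
  rw [map_nsmul, hq, A.map_map]
  rfl

end FermatLib.AV.Tors
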