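import Fermat.Agent.AV.Tors.Height.Degree
import Fermat.Agent.Curve.FiniteExtension

/-!
# The height in a finite extension
-/

set_option autoImplicit false

noncomputable section

universe u

open CategoryTheory AlgebraicGeometry IsLocalRing AlgebraicCurve

namespace FermatLib.AV.Tors

variable {K : Type u} [Field K] {g : ℕ} {A : AVData K g}
  {F : Type u} [Field F] [Algebra K F] [Curve.IsFunctionField K F]
  {F' : Type u} [Field F'] [Algebra K F'] [Algebra F F'] [IsScalarTower K F F']
  [Module.Finite F F'] [Curve.IsFunctionField K F']

/-- The inclusion of valuation rings along a restriction, over the constants. -/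
def restrictHom (w : Place K F') :
    valAlg (w.restrict F).toValuationSubring (place_algebraMap_mem (K := K) (w.restrict F)) →ₐ[K]
      valAlg w.toValuationSubring (place_algebraMap_mem (K := K) w) :=
  AlgHom.codRestrict ((IsScalarTower.toAlgHom K F F').comp
    (valAlg (w.restrict F).toValuationSubring (place_algebraMap_mem (K := K) (w.restrict F))).val) _
      fun a => a.2

instance (w : Place K F') : IsLocalHom (restrictHom (F := F) w).toRingHom :=
  ⟨fun a ha => IsLocalHom.map_nonunit
    (self := Place.instIsLocalHomRestrictInclusion (F := F) w) a ha⟩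

omit [Curve.IsFunctionField K F] [Curve.IsFunctionField K F'] in
theorem placeCentre_map (p : A.Pt F) (w : Place K F') :
    placeCentre (A.map (IsScalarTower.toAlgHom K F F') p) w = placeCentre p (w.restrict F) := by
  set q := A.extend _ (place_algebraMap_mem (K := K) (w.restrict F)) p with hq
  have h : A.map (IsScalarTower.toAlgHom K F F') p
      = A.map (valAlg w.toValuationSubring (place_algebraMap_mem (K := K) w)).val
          (A.map (restrictHom (F := F) w) q) := by
    conv_lhs => rw [← A.map_extend _ (place_algebraMap_mem (K := K) (w.restrict F)) p]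
    rw [A.map_map, A.map_map]
    rfl
  rw [placeCentre, AVData.centreAt, h, A.extend_map, A.centre_map]
  rfl

omit [Curve.IsFunctionField K F] [Curve.IsFunctionField K F'] [Module.Finite F F'] in
theorem centre_map_algebraMap (p : A.Pt F) :
    A.centre (A.map (IsScalarTower.toAlgHom K F F') p) = A.centre p :=
  have : IsLocalHom (IsScalarTower.toAlgHom K F F').toRingHom :=
    ⟨fun a ha => (show a ≠ 0 from fun h => ha.ne_zero (by simp [h])).isUnit⟩
  A.centre_map _ p

omit [Curve.IsFunctionField K F] [Curve.IsFunctionField K F'] in
theorem eqnAt_map (D : CartierDiv A) (p : A.Pt F) (w : Place K F') :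
    eqnAt D (A.map (IsScalarTower.toAlgHom K F F') p) w
      = algebraMap F F' (eqnAt D p (w.restrict F)) := by
  rw [eqnAt, eqnAt, placeCentre_map, centre_map_algebraMap, A.evalAt_map]
  · rfl
  · exact (D.isUnitAt_of_specializes (A.centre_specializes_centreAt _ _ p)).2.1

/-- The height is multiplied by the degree of the extension. -/
theorem height_map (D : CartierDiv A) (p : A.Pt F) :
    height K D (A.map (IsScalarTower.toAlgHom K F F') p)
      = (Module.finrank F F' : ℤ) * height K D p := by
  rw [height, height, ← Divisor.degree_pullback (F' := F')]
  congr 1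
  ext w
  rw [pullDiv_apply, Divisor.pullback_apply, pullDiv_apply, eqnAt_map, w.ord_restrict]

end FermatLib.AV.Tors
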