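import Fermat.Agent.AV.Tors.Count.LineCurve

/-!
# Uniform bound for the height of line curves

For a fixed effective divisor, finitely many equations cover the variety; each has an algebraic
relation over the coordinates, which bounds its number of zeros on a line curve.
-/

set_option autoImplicit false

noncomputable section

universe u

open CategoryTheory AlgebraicGeometry IsLocalRing AlgebraicCurve MvPolynomial TopologicalSpace
open scoped IntermediateField

namespace FermatLib.AV.Tors

variable {K : Type u} [Field K] [IsAlgClosed K] {g : ℕ}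

section pure

variable {F : Type u} [Field F] [Algebra K F] [Curve.IsFunctionField K F]

theorem aeval_mem_ordGE_min (v : Place K F) (T : F) (a : Polynomial K) {M : ℕ}
    (hM : a.natDegree ≤ M) :
    Polynomial.aeval T a ∈ Curve.ordGE v ((M : ℤ) * min 0 (v.ord T)) := by
  rw [Polynomial.aeval_eq_sum_range]
  refine Submodule.sum_mem _ fun i hi => Submodule.smul_mem _ _ ?_
  rw [Finset.mem_range] at hi
  refine Curve.mem_ordGE_of_le ?_
  rw [Curve.ord_pow]
  have h1 : (i : ℤ) * min 0 (v.ord T) ≤ (i : ℤ) * v.ord T :=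
    mul_le_mul_of_nonneg_left (min_le_right _ _) (Int.natCast_nonneg i)
  have h2 : (M : ℤ) * min 0 (v.ord T) ≤ (i : ℤ) * min 0 (v.ord T) :=
    mul_le_mul_of_nonpos_right (by omega) (min_le_left _ _)
  omega

/-- A function algebraic over `K[T]` with nonzero constant coefficient has few zeros. -/
theorem sum_ord_le_of_relation {T G : F} (hT : Transcendental K T)
    {Q : Polynomial (Polynomial K)} (hQ0 : Q.coeff 0 ≠ 0) {M : ℕ}
    (hM : ∀ i, (Q.coeff i).natDegree ≤ M)
    (hQ : Q.eval₂ (Polynomial.aeval T).toRingHom G = 0) (S : Finset (Place K F))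
    (hS : ∀ v ∈ S, 0 ≤ v.ord G) :
    ∑ v ∈ S, v.ord G ≤ (M : ℤ) * Module.finrank K⟮T⟯ F := by
  classical
  set a₀ := Polynomial.aeval T (Q.coeff 0) with ha₀
  have ha0 : a₀ ≠ 0 := fun h => hQ0 ((transcendental_iff.mp hT) _ h)
  set E : Divisor K F := Curve.divOf a₀ + (M : ℤ) • Curve.polarDivisor K T
  have hpole : ∀ v : Place K F, E v = v.ord a₀ - (M : ℤ) * min 0 (v.ord T) := fun v => by
    simp only [E, Finsupp.add_apply, Finsupp.smul_apply, Curve.divOf_apply,
      Curve.polarDivisor_apply, smul_eq_mul]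
    rcases le_total 0 (v.ord T) with h | h
    · rw [max_eq_right (by omega), min_eq_left h]; ring
    · rw [max_eq_left (by omega), min_eq_right h]; ring
  have hE0 : ∀ v, 0 ≤ E v := fun v => by
    have : (M : ℤ) * min 0 (v.ord T) ≤ v.ord a₀ :=
      Curve.le_ord_of_mem (aeval_mem_ordGE_min v T (Q.coeff 0) (hM 0)) ha0
    rw [hpole]
    omega
  have hG : ∀ v ∈ S, v.ord G ≤ E v := by
    intro v hv
    rcases (hS v hv).eq_or_lt with h | h
    · rw [← h]; exact hE0 v
    have hkey : a₀ ∈ Curve.ordGE v (v.ord G + (M : ℤ) * min 0 (v.ord T)) := by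
      rw [Polynomial.eval₂_eq_sum_range, Finset.sum_range_succ'] at hQ
      simp only [pow_zero, mul_one] at hQ
      have h1 : a₀ = -∑ i ∈ Finset.range Q.natDegree,
          (Polynomial.aeval T).toRingHom (Q.coeff (i + 1)) * G ^ (i + 1) :=
        eq_neg_of_add_eq_zero_right hQ
      rw [h1]
      refine neg_mem (Submodule.sum_mem _ fun i _ => ?_)
      rw [add_comm (v.ord G)]
      refine Curve.ordGE_anti ?_ (Curve.mul_mem_ordGE
        (aeval_mem_ordGE_min v T (Q.coeff (i + 1)) (hM _))
        (Curve.mem_ordGE_of_le (le_of_eq (Curve.ord_pow v G (i + 1)).symm)))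
      have : (1 : ℤ) * v.ord G ≤ ((i + 1 : ℕ) : ℤ) * v.ord G :=
        mul_le_mul_of_nonneg_right (by push_cast; omega) h.le
      omega
    have := Curve.le_ord_of_mem hkey ha0
    rw [hpole]
    omega
  calc ∑ v ∈ S, v.ord G ≤ ∑ v ∈ S, E v := Finset.sum_le_sum hG
    _ ≤ ∑ v ∈ S ∪ E.support, E v :=
        Finset.sum_le_sum_of_subset_of_nonneg Finset.subset_union_left fun v _ _ => hE0 v
    _ = ∑ v ∈ E.support, E v := (Finset.sum_subset Finset.subset_union_right fun v _ hv =>
        Finsupp.notMem_support_iff.mp hv).symm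
    _ = Divisor.degree E := by
        rw [Divisor.degree, Finsupp.liftAddHom_apply, Finsupp.sum]
        exact Finset.sum_congr rfl fun v _ => by simp [Curve.deg_eq_one v]
    _ = (M : ℤ) * Module.finrank K⟮T⟯ F := by
        rw [map_add, map_zsmul, Curve.degree_divOf, Curve.degree_polarDivisor hT, zero_add,
          smul_eq_mul]

end pure

variable {A : AVData K g}

namespace LineCurve

variable {t : Fin g → A.X.presheaf.stalk A.orig} {w : Fin g → K} {R : ℕ} (C : LineCurve A t w R)

theorem specializes : A.centre C.p ⤳ A.orig :=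
  C.placeCentre_eq ▸ A.centre_specializes_centreAt _ _ C.p

theorem mem_localRing (i : Fin g) :
    algebraMap _ A.FA (t i) ∈ A.localRing (A.centre C.p) :=
  A.localRing_mono C.specializes ⟨t i, rfl⟩

/-- Values of polynomials in the coordinates on the curve. -/
theorem aeval_evalAt (a : MvPolynomial (Fin g) K) :
    aeval (R := K) (fun i => A.evalAt C.p (algebraMap _ A.FA (t i))) a
      = Polynomial.aeval C.T (aeval (fun i => Polynomial.C (w i) * Polynomial.X) a) := by
  rw [← AlgHom.comp_apply, comp_aeval]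
  congr 2
  funext i
  simp [C.evalAt_eq i]

theorem aeval_evalAt_ne_zero {a : MvPolynomial (Fin g) K} (ha : eval w a ≠ 0) :
    aeval (R := K) (fun i => A.evalAt C.p (algebraMap _ A.FA (t i))) a ≠ 0 := fun h =>
  aeval_line_ne_zero ha ((transcendental_iff.mp C.transcendental) _ (C.aeval_evalAt a ▸ h))

end LineCurve

theorem exists_relation_of_coordinates {t : Fin g → A.X.presheaf.stalk A.orig}
    (ht : IsCoordinates (K := K) t) {z : A.FA} (hz : z ≠ 0) :
    ∃ Ψ : Polynomial (MvPolynomial (Fin g) K), Ψ.coeff 0 ≠ 0 ∧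
      Ψ.eval₂ (aeval (R := K) fun i => algebraMap _ A.FA (t i)).toRingHom z = 0 := by
  obtain ⟨Φ, hΦ, h⟩ := exists_polynomial_relation A (0 : A.Pt K) ht z
  refine exists_relation_coeff_zero_ne _ hz hΦ ?_
  have : (aeval (R := K) fun i => algebraMap _ A.FA (t i)).toRingHom
      = (algebraMap (A.X.presheaf.stalk A.orig) A.FA).comp (aeval (R := K) t).toRingHom := by
    have := comp_aeval t (IsScalarTower.toAlgHom K (A.X.presheaf.stalk A.orig) A.FA)
    exact (congrArg AlgHom.toRingHom this).symm
  rw [this]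
  exact h

/-- **The height of line curves with respect to an effective divisor is bounded.** -/
theorem exists_height_bound {t : Fin g → A.X.presheaf.stalk A.orig}
    (ht : IsCoordinates (K := K) t) (R : ℕ) (D : CartierDiv A) (hD : (1 : A.FA) ∈ D.sections) :
    ∃ (B : ℕ) (b : MvPolynomial (Fin g) K), b ≠ 0 ∧ ∀ w : Fin g → K, eval w b ≠ 0 →
      ∀ C : LineCurve A t w R, height K D C.p ≤ B := by
  classical
  have : CompactSpace A.X := QuasiCompact.compactSpace_of_compactSpace A.str
  choose U hU hunit using D.loc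
  obtain ⟨s, hs⟩ := (isCompact_univ (X := A.X)).elim_finite_subcover (fun x => (U x : Set A.X))
    (fun x => (U x).isOpen) fun x _ => Set.mem_iUnion.mpr ⟨x, hU x⟩
  choose Ψ hΨ0 hΨ using fun x => exists_relation_of_coordinates ht (D.eqn_ne_zero x)
  set lineDeg : A.X → ℕ := fun x =>
    (Ψ x).support.sup fun i => ((Ψ x).coeff i).totalDegree
  refine ⟨∑ x ∈ s, lineDeg x * R,
    (Ψ A.orig).coeff 0 * ∏ x ∈ s, (Ψ x).coeff 0,
    mul_ne_zero (hΨ0 _) (Finset.prod_ne_zero_iff.mpr fun x _ => hΨ0 x), fun w hw C => ?_⟩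
  rw [map_mul, map_prod, mul_ne_zero_iff, Finset.prod_ne_zero_iff] at hw
  set p := C.p
  set c := A.centre p with hc
  have heqn : ∀ x, D.eqn x ∈ A.localRing x := fun x => by simpa using hD x
  have hd0 : A.evalAt p (1 * D.eqn c) ≠ 0 := by
    rw [Ne, evalAt_section_eq_zero_iff D p C.specializes hD, one_mul]
    exact evalAt_ne_zero_of_relation p C.mem_localRing
      (A.localRing_mono C.specializes (heqn _)) (hΨ _) (C.aeval_evalAt_ne_zero hw.1)
  set E : Divisor K C.F := Curve.divOf (A.evalAt p (1 * D.eqn c)) + pullDiv K D p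
  have hE : ∀ v, E v = v.ord (A.evalAt p (D.eqn (placeCentre p v))) ∧ 0 ≤ E v := fun v => by
    obtain ⟨h1, h2⟩ := nonneg_of_mem_sections D p v hD hd0
    exact ⟨h2.trans (by rw [one_mul]), h1⟩
  have hbound : ∀ x ∈ s, ∀ S : Finset (Place K C.F), (∀ v ∈ S, placeCentre p v ∈ U x) →
      ∑ v ∈ S, E v ≤ (lineDeg x * R : ℕ) := by
    intro x hx S hS
    rcases S.eq_empty_or_nonempty with rfl | ⟨v₁, hv₁⟩
    · simp only [Finset.sum_empty]; positivity
    have hspec : ∀ v : Place K C.F, A.centre p ⤳ placeCentre p v := fun v =>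
      A.centre_specializes_centreAt _ _ p
    have hmemv : ∀ v ∈ S, D.eqn x ∈ A.localRing (placeCentre p v) := fun v hv => by
      have := mul_mem (hunit x _ (hS v hv)).2.1 (heqn (placeCentre p v))
      rwa [div_mul_cancel₀ _ (D.eqn_ne_zero _)] at this
    have hxc : D.eqn x ∈ A.localRing c := A.localRing_mono (hspec v₁) (hmemv v₁ hv₁)
    set G := A.evalAt p (D.eqn x)
    have hG0 : G ≠ 0 := evalAt_ne_zero_of_relation p C.mem_localRing hxc (hΨ x)
      (C.aeval_evalAt_ne_zero (hw.2 x hx))
    have hord : ∀ v ∈ S, E v = v.ord G := fun v hv => by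
      have hu := hunit x _ (hS v hv)
      have hu' := hu.mono (hspec v)
      rw [(hE v).1]
      have hG : G = A.evalAt p (D.eqn x / D.eqn (placeCentre p v)) *
          A.evalAt p (D.eqn (placeCentre p v)) := by
        rw [← A.evalAt_mul hu'.2.1 (A.localRing_mono (hspec v) (heqn _)),
          div_mul_cancel₀ _ (D.eqn_ne_zero _)]
      have hne : A.evalAt p (D.eqn (placeCentre p v)) ≠ 0 := fun h => hG0 (by rw [hG, h, mul_zero])
      rw [hG, v.ord_mul (isUnitAt_evalAt_ne_zero A hu') hne, ord_evalAt_eq_zero p v hu, zero_add]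
    rw [Finset.sum_congr rfl hord]
    let l : MvPolynomial (Fin g) K →ₐ[K] Polynomial K :=
      aeval fun i => Polynomial.C (w i) * Polynomial.X
    refine (sum_ord_le_of_relation C.transcendental (Q := (Ψ x).map l.toRingHom)
      (G := G) (M := lineDeg x) ?_ ?_ ?_ S fun v hv => hord v hv ▸ (hE v).2).trans ?_
    · rw [Polynomial.coeff_map]
      exact aeval_line_ne_zero (hw.2 x hx)
    · intro i
      rw [Polynomial.coeff_map]
      by_cases hi : i ∈ (Ψ x).support
      · refine (MvPolynomial.aeval_natDegree_le _ (Finset.le_sup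
          (f := fun i => ((Ψ x).coeff i).totalDegree) hi) _ fun j =>
            (Polynomial.natDegree_C_mul_le _ _).trans Polynomial.natDegree_X_le).trans ?_
        rw [mul_one]
      · rw [Polynomial.notMem_support_iff.mp hi, map_zero]
        simp
    · rw [Polynomial.eval₂_map]
      have h1 := evalAt_relation p C.mem_localRing hxc (hΨ x)
      have h2 : (Polynomial.aeval C.T).toRingHom.comp l.toRingHom
          = (aeval (R := K) fun i => A.evalAt p (algebraMap _ A.FA (t i))).toRingHom :=
        RingHom.ext fun a => (C.aeval_evalAt a).symm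
      rw [h2]
      exact h1
    · push_cast
      exact mul_le_mul_of_nonneg_left (by exact_mod_cast C.finrank_le) (by positivity)
  have hh : height K D p = ∑ v ∈ E.support, E v := by
    rw [show height K D p = Divisor.degree E by rw [map_add, Curve.degree_divOf, zero_add]; rfl,
      Divisor.degree, Finsupp.liftAddHom_apply, Finsupp.sum]
    exact Finset.sum_congr rfl fun v _ => by simp [Curve.deg_eq_one v]
  rw [hh, Nat.cast_sum]
  calc ∑ v ∈ E.support, E v
      ≤ ∑ x ∈ s, ∑ v ∈ E.support.filter (fun v => placeCentre p v ∈ U x), E v := by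
        simp only [Finset.sum_filter]
        rw [Finset.sum_comm]
        refine Finset.sum_le_sum fun v _ => ?_
        obtain ⟨x, hxs, hxv⟩ : ∃ x ∈ s, placeCentre p v ∈ U x := by
          simpa using hs (Set.mem_univ (placeCentre p v))
        refine le_trans (le_of_eq (if_pos hxv).symm) (Finset.single_le_sum
          (f := fun x => if placeCentre p v ∈ U x then E v else 0) (fun y _ => ?_) hxs)
        split_ifs <;> simp [(hE v).2]
    _ ≤ ∑ x ∈ s, ((lineDeg x * R : ℕ) : ℤ) :=
        Finset.sum_le_sum fun x hx => hbound x hx _ fun v hv => (Finset.mem_filter.mp hv).2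

end FermatLib.AV.Tors
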