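import Fermat.Agent.AV.Tors.Count.Basic
import Fermat.Agent.AV.Tors.Geom.Tangent
import Fermat.Agent.AV.Tors.Alg.Specialization
import Fermat.Agent.Curve.PlaceConstruction

/-!
# Curves over lines in coordinates at the origin

Going down along the flat coordinate map gives, over every general line, a curve through the
origin whose function field has bounded degree over the line.
-/

set_option autoImplicit false

noncomputable section

universe u

open CategoryTheory AlgebraicGeometry IsLocalRing AlgebraicCurve MvPolynomial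
open scoped IntermediateField

namespace FermatLib.AV.Tors

variable {K : Type u} [Field K] [IsAlgClosed K] {g : ℕ} (A : AVData K g)

/-- A curve over the line through `w`, of degree at most `R` over it. -/
structure LineCurve (t : Fin g → A.X.presheaf.stalk A.orig) (w : Fin g → K) (R : ℕ) where
  F : Type u
  [field : Field F]
  [algebra : Algebra K F]
  [isFunctionField : Curve.IsFunctionField K F]
  T : F
  transcendental : Transcendental K T
  finrank_le : Module.finrank K⟮T⟯ F ≤ R
  p : A.Pt F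
  v₀ : Place K F
  placeCentre_eq : placeCentre p v₀ = A.orig
  evalAt_eq : ∀ i, A.evalAt p (algebraMap _ A.FA (t i)) = algebraMap K F (w i) * T

attribute [instance] LineCurve.field LineCurve.algebra LineCurve.isFunctionField

theorem finrank_iSup_adjoin_le {L E : Type u} [Field L] [Field E] [Algebra L E] {ι : Type*}
    (s : Finset ι) (y : ι → E) (r : ι → ℕ) (h : ∀ i ∈ s, IsIntegral L (y i))
    (hr : ∀ i ∈ s, (minpoly L (y i)).natDegree ≤ r i) :
    Module.finrank L ↥(⨆ i ∈ s, L⟮y i⟯ : IntermediateField L E) ≤ ∏ i ∈ s, r i := by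
  classical
  induction s using Finset.induction_on with
  | empty =>
    have h0 : (⨆ i ∈ (∅ : Finset ι), L⟮y i⟯) = (⊥ : IntermediateField L E) := by simp
    rw [h0, IntermediateField.finrank_bot, Finset.prod_empty]
  | @insert a s ha ih =>
    rw [Finset.iSup_insert, Finset.prod_insert ha]
    refine (IntermediateField.finrank_sup_le _ _).trans (Nat.mul_le_mul ?_
      (ih (fun i hi => h i (Finset.mem_insert_of_mem hi))
        fun i hi => hr i (Finset.mem_insert_of_mem hi)))
    rw [IntermediateField.adjoin.finrank (h a (Finset.mem_insert_self a s))]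
    exact hr a (Finset.mem_insert_self a s)

theorem isIntegral_of_relation {L E : Type u} [Field L] [Field E] [Algebra L E] {y : E}
    {P : Polynomial L} (hP : P ≠ 0) (h : Polynomial.aeval y P = 0) :
    IsIntegral L y ∧ (minpoly L y).natDegree ≤ P.natDegree :=
  ⟨(show IsAlgebraic L y from ⟨P, hP, h⟩).isIntegral,
    Polynomial.natDegree_le_of_dvd (minpoly.dvd L y h) hP⟩

/-- Going down to a line: abstract form. -/
theorem exists_line_quotient (hg : 0 < g) {O : Type u} [CommRing O] [Algebra K O] [IsLocalRing O]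
    [Algebra.EssFiniteType K O] {t : Fin g → O} (ht : IsCoordinates (K := K) t)
    (hrel₀ : ∀ y : O, ∃ Φ : Polynomial (MvPolynomial (Fin g) K), Φ ≠ 0 ∧
      Φ.eval₂ (aeval (R := K) t).toRingHom y = 0) :
    ∃ (R : ℕ) (b : MvPolynomial (Fin g) K), b ≠ 0 ∧
      ∀ w : Fin g → K, eval w b ≠ 0 →
        ∃ (F : Type u) (_ : Field F) (_ : Algebra K F) (_ : Curve.IsFunctionField K F) (T : F)
          (v₀ : Place K F)
          (πV : O →ₐ[K] valAlg v₀.toValuationSubring (place_algebraMap_mem (K := K) v₀)),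
          Transcendental K T ∧ Module.finrank K⟮T⟯ F ≤ R ∧ IsLocalHom πV.toRingHom ∧
          ∀ i, ((πV (t i) : valAlg v₀.toValuationSubring (place_algebraMap_mem (K := K) v₀)) : F)
            = algebraMap K F (w i) * T := by
  classical
  set σ := Algebra.EssFiniteType.finset K O
  choose Φ hΦ0 hΦ using hrel₀
  refine ⟨∏ y ∈ σ, (Φ y).natDegree, X ⟨0, hg⟩ * ∏ y ∈ σ, (Φ y).leadingCoeff, ?_, fun w hw => ?_⟩
  · exact mul_ne_zero (X_ne_zero _) (Finset.prod_ne_zero_iff.mpr fun y _ =>
      Polynomial.leadingCoeff_ne_zero.mpr (hΦ0 y))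
  rw [map_mul, eval_X, map_prod, mul_ne_zero_iff, Finset.prod_ne_zero_iff] at hw
  obtain ⟨hw0, hwσ⟩ := hw
  -- the prime over the line
  let ι : MvPolynomial (Fin g) K →ₐ[K] O := aeval t
  let : Algebra (MvPolynomial (Fin g) K) O := ι.toRingHom.toAlgebra
  have : Module.Flat (MvPolynomial (Fin g) K) O := RingHom.flat_algebraMap_iff.mp ht.flat
  let l : MvPolynomial (Fin g) K →ₐ[K] Polynomial K :=
    aeval fun i => Polynomial.C (w i) * Polynomial.X
  set P := RingHom.ker l.toRingHom with hP
  have : P.IsPrime := RingHom.ker_isPrime _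
  have hPm : P ≤ (maximalIdeal O).under (MvPolynomial (Fin g) K) := by
    intro f hf
    show ι f ∈ maximalIdeal O
    have h0 : eval (0 : Fin g → K) f = 0 := by
      have h1 := congrArg (Polynomial.aeval (0 : K)) (show l f = 0 from hf)
      rw [map_zero, ← AlgHom.comp_apply, comp_aeval] at h1
      simpa [Function.comp_def, aeval_eq_eval, Pi.zero_def] using h1
    have h2 : (Ideal.Quotient.mkₐ K (maximalIdeal O)).comp ι
        = (Algebra.ofId K (O ⧸ maximalIdeal O)).comp (aeval (0 : Fin g → K)) := by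
      refine MvPolynomial.algHom_ext fun i => ?_
      simp only [AlgHom.comp_apply, ι, aeval_X, Pi.zero_apply, map_zero]
      exact Ideal.Quotient.eq_zero_iff_mem.mpr
        (ht.span_eq ▸ Ideal.subset_span (Set.mem_range_self i))
    have h3 := AlgHom.congr_fun h2 f
    rw [AlgHom.comp_apply, AlgHom.comp_apply, aeval_eq_eval] at h3
    change Ideal.Quotient.mk (maximalIdeal O) (ι f) = _ at h3
    change eval (0 : Fin g → K) f = 0 at h0
    refine Ideal.Quotient.eq_zero_iff_mem.mp (h3.trans ?_)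
    show Algebra.ofId K _ (eval (0 : Fin g → K) f) = 0
    rw [h0, map_zero]
  obtain ⟨q, hqm, hq, hqP⟩ :=
    Ideal.exists_ideal_le_liesOver_of_le (p := P)
      (q := (maximalIdeal O).under (MvPolynomial (Fin g) K)) (maximalIdeal O) hPm
  have hqι : ∀ f, ι f ∈ q ↔ l f = 0 := fun f =>
    (Ideal.mem_of_liesOver q P f).symm
  -- its function field
  let F := FractionRing (O ⧸ q)
  let π : O →ₐ[K] F := (IsScalarTower.toAlgHom K (O ⧸ q) F).comp (Ideal.Quotient.mkₐ K q)
  have hπ : ∀ y, π y = 0 ↔ y ∈ q := fun y => by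
    show algebraMap (O ⧸ q) F (Ideal.Quotient.mk q y) = 0 ↔ _
    rw [map_eq_zero_iff _ (IsFractionRing.injective (O ⧸ q) F), Ideal.Quotient.eq_zero_iff_mem]
  let T : F := algebraMap K F (w ⟨0, hg⟩)⁻¹ * π (t ⟨0, hg⟩)
  have hwi : ∀ i, π (t i) = algebraMap K F (w i) * T := by
    intro i
    have h1 : π (ι (X i - C (w i * (w ⟨0, hg⟩)⁻¹) * X ⟨0, hg⟩)) = 0 := by
      refine (hπ _).mpr ((hqι _).mpr ?_)
      simp only [l, map_sub, map_mul, aeval_X, aeval_C, Polynomial.algebraMap_eq]
      rw [← mul_assoc, mul_assoc (Polynomial.C (w i)), ← Polynomial.C_mul,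
        inv_mul_cancel₀ hw0, Polynomial.C_1, mul_one, sub_self]
    simp only [ι, map_sub, map_mul, aeval_X, aeval_C, AlgHom.commutes, sub_eq_zero] at h1
    rw [h1, mul_assoc]
  have hline : ∀ f, π (ι f) = Polynomial.aeval T (l f) := fun f => by
    have : π.comp ι = (Polynomial.aeval T).comp l := MvPolynomial.algHom_ext fun i => by
      simp [ι, l, hwi]
    exact AlgHom.congr_fun this f
  have hT : Transcendental K T := by
    rw [transcendental_iff]
    intro P0 hP0
    let f : MvPolynomial (Fin g) K := Polynomial.aeval (C (w ⟨0, hg⟩)⁻¹ * X ⟨0, hg⟩) P0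
    have hlf : l f = P0 := by
      show l (Polynomial.aeval _ P0) = P0
      rw [← Polynomial.aeval_algHom_apply]
      have : l (C (w ⟨0, hg⟩)⁻¹ * X ⟨0, hg⟩) = Polynomial.X := by
        simp only [l, map_mul, aeval_X, aeval_C, Polynomial.algebraMap_eq]
        rw [← mul_assoc, ← Polynomial.C_mul, inv_mul_cancel₀ hw0, Polynomial.C_1, one_mul]
      rw [this, Polynomial.aeval_X_left_apply]
    have h1 : π (ι f) = 0 := by rw [hline, hlf, hP0]
    rw [← hlf]
    exact (hqι f).mp ((hπ _).mp h1)
  -- bounded degree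
  have hrel : ∀ y ∈ σ, IsIntegral K⟮T⟯ (π y) ∧
      (minpoly K⟮T⟯ (π y)).natDegree ≤ (Φ y).natDegree := by
    intro y hy
    let θ : MvPolynomial (Fin g) K →ₐ[K] K⟮T⟯ :=
      (Polynomial.aeval (IntermediateField.AdjoinSimple.gen K T)).comp l
    have hθ : ∀ f, algebraMap K⟮T⟯ F (θ f) = π (ι f) := fun f => by
      rw [hline]
      show algebraMap K⟮T⟯ F (Polynomial.aeval _ (l f)) = _
      rw [← Polynomial.aeval_algebraMap_apply]
      rfl
    have hy0 : (Φ y).eval₂ ι.toRingHom y = 0 := hΦ y
    have hne : (Φ y).map θ.toRingHom ≠ 0 := by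
      intro h0
      have h1 : θ ((Φ y).leadingCoeff) = 0 := by
        have := congrArg (fun Q => Polynomial.coeff Q (Φ y).natDegree) h0
        simpa [Polynomial.coeff_map] using this
      have h2 : Polynomial.aeval T (l (Φ y).leadingCoeff) = 0 := by
        rw [← hline, ← hθ, h1, map_zero]
      exact aeval_line_ne_zero (hwσ y hy) ((transcendental_iff.mp hT) _ h2)
    obtain ⟨h1, h2⟩ := isIntegral_of_relation (y := π y) hne (by
      rw [Polynomial.aeval_def, Polynomial.eval₂_map,
        show (algebraMap K⟮T⟯ F).comp θ.toRingHom = π.toRingHom.comp ι.toRingHom from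
          RingHom.ext hθ]
      have := congrArg π.toRingHom hy0
      rwa [Polynomial.hom_eval₂, map_zero] at this)
    exact ⟨h1, h2.trans Polynomial.natDegree_map_le⟩
  set E : IntermediateField K⟮T⟯ F := ⨆ y ∈ σ, K⟮T⟯⟮π y⟯ with hE
  have hadj : ∀ a ∈ Algebra.adjoin K (σ : Set O), π a ∈ E := by
    intro a ha
    induction ha using Algebra.adjoin_induction with
    | mem y hy =>
      exact (le_iSup₂ (f := fun y (_ : y ∈ σ) => K⟮T⟯⟮π y⟯) y hy : _ ≤ E)
        (IntermediateField.mem_adjoin_simple_self _ _)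
    | algebraMap c =>
      rw [π.commutes, IsScalarTower.algebraMap_apply K K⟮T⟯ F]
      exact E.algebraMap_mem _
    | add a b _ _ ha hb => rw [map_add]; exact add_mem ha hb
    | mul a b _ _ ha hb => rw [map_mul]; exact mul_mem ha hb
  have hπE : ∀ y : O, π y ∈ E := by
    intro y
    obtain ⟨⟨a, b, hb⟩, hab⟩ :=
      IsLocalization.surj (Algebra.EssFiniteType.submonoid K O) y
    have hbu : IsUnit (π (b : O)) := (show IsUnit (b : O) from hb).map π
    have : π y = π (a : O) / π (b : O) := by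
      rw [eq_div_iff hbu.ne_zero, ← map_mul]
      exact congrArg π hab
    rw [this]
    exact div_mem (hadj _ a.2) (hadj _ b.2)
  have hEtop : E = ⊤ := by
    refine eq_top_iff.mpr fun z _ => ?_
    obtain ⟨a, b, -, rfl⟩ := IsFractionRing.div_surjective (A := O ⧸ q) z
    obtain ⟨a, rfl⟩ := Ideal.Quotient.mk_surjective a
    obtain ⟨b, rfl⟩ := Ideal.Quotient.mk_surjective b
    exact div_mem (hπE a) (hπE b)
  have : FiniteDimensional K⟮T⟯ ↥E :=
    IntermediateField.finiteDimensional_iSup_of_finset'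
      fun y hy => IntermediateField.adjoin.finiteDimensional (hrel y hy).1
  have hfinT : FiniteDimensional K⟮T⟯ F := by
    rw [hEtop] at this
    exact Module.Finite.equiv IntermediateField.topEquiv.toLinearEquiv
  have hR : Module.finrank K⟮T⟯ F ≤ ∏ y ∈ σ, (Φ y).natDegree := by
    rw [← IntermediateField.finrank_top', ← hEtop]
    exact finrank_iSup_adjoin_le σ (fun y => π y) _ (fun y hy => (hrel y hy).1)
      fun y hy => (hrel y hy).2
  have : Curve.IsFunctionField K F := Curve.IsFunctionField.of_transcendental hT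
  -- a place over the origin
  obtain ⟨ρ, hρ⟩ : ∃ ρ : O →+* K, ∀ s, ρ s = 0 ↔ s ∈ maximalIdeal O := by
    refine ⟨(RingEquiv.ofBijective (algebraMap K (ResidueField O))
      ⟨(algebraMap K (ResidueField O)).injective, ht.residue_surjective⟩).symm.toRingHom.comp
        (residue O), fun s => ?_⟩
    simp [residue_eq_zero_iff]
  let Rng : Subring F := π.toRingHom.range
  have hrk : RingHom.ker π.toRingHom.rangeRestrict ≤ RingHom.ker ρ := fun s hs => by
    rw [RingHom.mem_ker] at hs ⊢
    exact (hρ s).mpr (hqm ((hπ s).mp (congrArg Subtype.val hs)))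
  let φ : Rng →+* K := RingHom.liftOfSurjective π.toRingHom.rangeRestrict
    π.toRingHom.rangeRestrict_surjective ⟨ρ, hrk⟩
  obtain ⟨V, hV, ψ, hψ, hker⟩ := exists_specialization Rng φ
  have hπV : ∀ s, π s ∈ V := fun s => hV ⟨s, rfl⟩
  have hψπ : ∀ s, ψ ⟨π s, hπV s⟩ = ρ s := fun s => by
    rw [← RingHom.liftOfRightInverse_comp_apply π.toRingHom.rangeRestrict
      (Function.surjInv π.toRingHom.rangeRestrict_surjective)
      (Function.rightInverse_surjInv π.toRingHom.rangeRestrict_surjective) ⟨ρ, hrk⟩ s]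
    exact hψ ⟨π s, s, rfl⟩
  have hKV : ∀ c : K, algebraMap K F c ∈ V := fun c => π.commutes c ▸ hπV _
  have hVtop : V ≠ ⊤ := by
    intro h
    have hmem : T⁻¹ ∈ V := h ▸ ValuationSubring.mem_top _
    have hTm : ψ ⟨π (t ⟨0, hg⟩), hπV _⟩ = 0 := by
      rw [hψπ]
      exact (hρ _).mpr (ht.span_eq ▸ Ideal.subset_span (Set.mem_range_self _))
    have h1 : (⟨π (t ⟨0, hg⟩), hπV _⟩ : V) * (⟨algebraMap K F (w ⟨0, hg⟩)⁻¹, hKV _⟩ *
        ⟨T⁻¹, hmem⟩) = 1 := by
      apply Subtype.ext
      show π (t ⟨0, hg⟩) * (algebraMap K F (w ⟨0, hg⟩)⁻¹ * T⁻¹) = 1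
      rw [← mul_assoc, mul_comm (π (t ⟨0, hg⟩))]
      exact mul_inv_cancel₀ (show T ≠ 0 from fun h0 => hT (h0 ▸ isAlgebraic_zero))
    have h2 := congrArg ψ h1
    rw [map_mul, hTm, zero_mul, map_one] at h2
    exact zero_ne_one h2
  let v₀ : Place K F := Curve.placeOfValuationSubring V hKV hVtop
  let πV : O →ₐ[K] valAlg v₀.toValuationSubring (place_algebraMap_mem (K := K) v₀) :=
    π.codRestrict _ fun s => hπV s
  have : IsLocalHom πV.toRingHom := ⟨fun s hs => by
    by_contra hns
    have h0 : ψ ⟨π s, hπV s⟩ = 0 := by rw [hψπ]; exact (hρ s).mpr hns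
    obtain ⟨c, hc⟩ := isUnit_iff_exists_inv.mp hs
    have h1 : (⟨π s, hπV s⟩ : V) * ⟨(c : F), c.2⟩ = 1 :=
      Subtype.ext (congrArg Subtype.val hc :)
    have h2 := congrArg ψ h1
    rw [map_mul, h0, zero_mul, map_one] at h2
    exact zero_ne_one h2⟩
  exact ⟨F, inferInstance, inferInstance, inferInstance, T, v₀, πV, hT, hR, inferInstance,
    fun i => hwi i⟩

/-- The curves over general lines. -/
theorem exists_lineCurve (hg : 0 < g) {t : Fin g → A.X.presheaf.stalk A.orig}
    (ht : IsCoordinates (K := K) t) :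
    ∃ (R : ℕ) (b : MvPolynomial (Fin g) K), b ≠ 0 ∧
      ∀ w : Fin g → K, eval w b ≠ 0 → Nonempty (LineCurve A t w R) := by
  have : Algebra.EssFiniteType K (A.X.presheaf.stalk A.orig) := essFiniteType_stalk A 0
  obtain ⟨R, b, hb, hline⟩ := exists_line_quotient hg ht fun y => by
    obtain ⟨Φ, hΦ0, hΦ⟩ := exists_polynomial_relation A (0 : A.Pt K) ht (algebraMap _ A.FA y)
    refine ⟨Φ, hΦ0, IsFractionRing.injective (A.X.presheaf.stalk A.orig) A.FA ?_⟩
    rw [Polynomial.hom_eval₂, map_zero]
    exact hΦ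
  refine ⟨R, b, hb, fun w hw => ?_⟩
  obtain ⟨F, i1, i2, i3, T, v₀, πV, hT, hR, hloc, hwi⟩ := hline w hw
  refine ⟨{
    F := F
    T := T
    transcendental := hT
    finrank_le := hR
    p := A.map ((valAlg v₀.toValuationSubring (place_algebraMap_mem (K := K) v₀)).val.comp πV)
      (A.taut A.orig)
    v₀ := v₀
    placeCentre_eq := ?_
    evalAt_eq := fun i => ?_ }⟩
  · rw [placeCentre, AVData.centreAt, ← A.map_map, A.extend_map, A.centre_map,
      AVData.centre_taut]
  · rw [A.evalAt_map _ (A.taut A.orig) (by rw [AVData.centre_taut]; exact ⟨t i, rfl⟩),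
      AVData.evalAt_taut]
    exact hwi i

end FermatLib.AV.Tors
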