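import Fermat.Agent.AV.Tors.Count.Sections
import Fermat.Agent.AV.Tors.Count.Extension
import Fermat.Agent.AV.Tors.Count.Descent

/-!
# The lower bound for the number of torsion points

A preimage under `[n]` of a line curve passes, over the marked place, through torsion points with
ramification indices adding up to the degree, so a section whose jets of sufficient order vanish
at all torsion points vanishes on it.
-/

set_option autoImplicit false

noncomputable section

universe u

open CategoryTheory AlgebraicGeometry IsLocalRing AlgebraicCurve MvPolynomial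

namespace FermatLib.AV.Tors

variable {K : Type u} [Field K] [IsAlgClosed K] {g : ℕ} {A : AVData K g}

section preimage

set_option linter.unusedSectionVars false

variable {n : ℕ} (hn : (n : K) ≠ 0) (φ : DomEndo A)
  (hφ : ∀ (R : Type u) [CommRing R] [Algebra K R] (p : A.Pt R), φ.act p = n • p)
  {F F' : Type u} [Field F] [Algebra K F] [Field F'] [Algebra K F'] [Algebra F F']
  [IsScalarTower K F F'] [Module.Finite F F'] [Curve.IsFunctionField K F]
  [Curve.IsFunctionField K F'] {p : A.Pt F} {p' : A.Pt F'}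
  (hpp : n • p' = A.map (IsScalarTower.toAlgHom K F F') p)
  (w : Place K F') (hw : placeCentre p (w.restrict F) = A.orig)

include hn hφ hpp hw

/-- A preimage meets torsion points over a place at the origin. -/
theorem exists_torsion_centre :
    ∃ x : A.Pt K, n • x = 0 ∧ placeCentre p' w = A.centre x := by
  have h1 : φ.hom (placeCentre p' w) = A.orig := by
    rw [← placeCentre_act, hφ, hpp, placeCentre_map, hw]
  obtain ⟨x, hx⟩ := A.exists_centre_eq (isClosed_singleton_of_hom_eq_orig hn φ hφ _ h1)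
  refine ⟨x, A.centre_injective ?_, hx.symm⟩
  show A.centre (n • x) = A.orig
  rw [← hφ, φ.centre_act, hx, h1]

/-- The order of vanishing at the preimage is at least the ramification index. -/
theorem evalAt_mem_ordGE_ramificationIndex {x : A.Pt K} (hx : n • x = 0)
    (hc : placeCentre p' w = A.centre x) {s : A.X.presheaf.stalk (A.centre x)}
    (hs : s ∈ maximalIdeal _) :
    A.evalAt p' (algebraMap _ A.FA s) ∈ Curve.ordGE w (w.ramificationIndex F : ℤ) := by
  have hspec : A.centre p' ⤳ A.centre x := hc ▸ A.centre_specializes_centreAt _ _ p'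
  have hhom : φ.hom (A.centre x) = A.orig := by
    rw [← φ.centre_act, hφ, hx]
  have hspec0 : A.centre p ⤳ A.orig := hw ▸ A.centre_specializes_centreAt _ _ p
  refine (Submodule.span_induction (p := fun z _ => z ∈ A.localRing (A.centre x) ∧
      A.evalAt p' z ∈ Curve.ordGE w (w.ramificationIndex F : ℤ)) (fun b hb => ?_) ?_
    (fun b b' _ _ hb hb' => ?_) (fun c b _ hb => ?_)
    (maximalIdeal_eq_span_comap hn φ hφ x hx s hs)).2
  · obtain ⟨z, ⟨hz, hz0⟩, rfl⟩ := hb
    refine ⟨φ.comap_mem_localRing (by rw [hhom]; exact hz), ?_⟩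
    have hzc : z ∈ A.localRing (A.centre p) := A.localRing_mono hspec0 hz
    have hval : A.evalAt p' (φ.comap z) = algebraMap F F' (A.evalAt p z) := by
      rw [← φ.evalAt_act, hφ, hpp, A.evalAt_map _ _ hzc]
      · rfl
      · rw [hφ, hpp, centre_map_algebraMap]
        exact hzc
    rw [hval]
    obtain ⟨o, rfl⟩ := hz
    have ho : o ∈ maximalIdeal (A.X.presheaf.stalk A.orig) :=
      (A.evalAt_eq_zero_iff_not_isUnit (0 : A.Pt K) o).mp ((A.evalAt_of_mem _).trans hz0)
    rcases eq_or_ne (A.evalAt p (algebraMap _ A.FA o)) 0 with h0 | h0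
    · rw [show (IsScalarTower.toAlgHom K (A.X.presheaf.stalk A.orig) A.FA).toRingHom o =
        algebraMap _ A.FA o from rfl, h0, map_zero]
      exact zero_mem _
    refine Curve.mem_ordGE_of_le ?_
    have h1 := Curve.le_ord_of_mem (evalAt_mem_ordGE_one p (w.restrict F) hw ho) h0
    calc (w.ramificationIndex F : ℤ) = w.ramificationIndex F * 1 := (mul_one _).symm
      _ ≤ w.ramificationIndex F * (w.restrict F).ord (A.evalAt p (algebraMap _ A.FA o)) :=
          mul_le_mul_of_nonneg_left h1 (Int.natCast_nonneg _)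
      _ = _ := (w.ord_restrict _).symm
  · refine ⟨zero_mem _, ?_⟩
    have : A.evalAt p' 0 = 0 := by simpa using A.evalAt_algebraMap p' 0
    rw [this]
    exact zero_mem _
  · refine ⟨add_mem hb.1 hb'.1, ?_⟩
    rw [A.evalAt_add (A.localRing_mono hspec hb.1) (A.localRing_mono hspec hb'.1)]
    exact add_mem hb.2 hb'.2
  · refine ⟨mul_mem c.2 hb.1, ?_⟩
    show A.evalAt p' ((c : A.FA) * b) ∈ _
    rw [A.evalAt_mul (A.localRing_mono hspec c.2) (A.localRing_mono hspec hb.1)]
    have hc0 : A.evalAt p' (c : A.FA) ∈ Curve.ordGE w 0 :=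
      (Curve.mem_valuationSubring_iff w).mp
        (A.evalAt_mem w.toValuationSubring (place_algebraMap_mem w) p'
          (show (c : A.FA) ∈ A.localRing (placeCentre p' w) from hc.symm ▸ c.2))
    simpa using Curve.mul_mem_ordGE hc0 hb.2

end preimage

/-- A section with vanishing jets at all torsion points is zero. -/
theorem eq_zero_of_jetMap_torsion {t : Fin g → A.X.presheaf.stalk A.orig}
    (ht : IsCoordinates (K := K) t) {R BD : ℕ} {b : MvPolynomial (Fin g) K} (hb : b ≠ 0)
    (D : CartierDiv A)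
    (hquad : ∀ (F : Type u) [Field F] [Algebra K F] [Curve.IsFunctionField K F] (p : A.Pt F)
      (n : ℕ), height K D (n • p) = (n : ℤ) ^ 2 * height K D p)
    (hline : ∀ w, eval w b ≠ 0 → ∃ C : LineCurve A t w R, height K D C.p ≤ BD)
    {n : ℕ} (hn : (n : K) ≠ 0) {s : (D.npow (g * n ^ 2)).sections}
    (h : ∀ x : A.Pt K, n • x = 0 →
      CartierDiv.jetMap (D.npow (g * n ^ 2)) (A.centre x) (g * BD) s = 0) : s = 0 := by
  classical
  obtain ⟨φ, hφ⟩ := exists_nsmulEndo A n hn
  by_contra hs0
  have := finite_torsion hn φ hφ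
  let ι := {x : A.Pt K // n • x = 0}
  have := Fintype.ofFinite ι
  have hz : ∀ x : ι, (s : A.FA) * (D.npow (g * n ^ 2)).eqn (A.centre x.1) ≠ 0 := fun x =>
    mul_ne_zero (fun h0 => hs0 (Subtype.ext h0)) ((D.npow (g * n ^ 2)).eqn_ne_zero _)
  choose Ψ hΨ0 hΨ using fun x => exists_relation_comap ht φ.comap (hz x)
  obtain ⟨wt, hwt⟩ := exists_eval_ne_zero (mul_ne_zero hb
    (Finset.prod_ne_zero_iff.mpr fun x (_ : x ∈ Finset.univ) => hΨ0 x))
  rw [map_mul, map_prod, mul_ne_zero_iff, Finset.prod_ne_zero_iff] at hwt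
  obtain ⟨C, hC⟩ := hline wt hwt.1
  obtain ⟨F', hfin, p', hpp⟩ := exists_nsmul_preimage hn φ hφ C.p
  have : Curve.IsFunctionField K F' := Curve.IsFunctionField.of_finite C.F
  -- the height of the preimage
  have hh : height K (D.npow (g * n ^ 2)) p' ≤ (g : ℤ) * BD * Module.finrank C.F F' := by
    rw [height_npow]
    have h1 : (n : ℤ) ^ 2 * height K D p' = Module.finrank C.F F' * height K D C.p := by
      rw [← hquad, hpp, height_map]
    calc ((g * n ^ 2 : ℕ) : ℤ) * height K D p'
        = g * ((n : ℤ) ^ 2 * height K D p') := by push_cast; ring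
      _ = g * (Module.finrank C.F F' * height K D C.p) := by rw [h1]
      _ ≤ g * (Module.finrank C.F F' * BD) := by gcongr
      _ = _ := by ring
  -- places over the marked place
  have hfib : ∀ w ∈ C.v₀.fiber F', placeCentre C.p (w.restrict C.F) = A.orig := fun w hw => by
    rw [Place.mem_fiber.mp hw]
    exact C.placeCentre_eq
  have hne : ∀ w ∈ C.v₀.fiber F', ∃ x : ι, placeCentre p' w = A.centre x.1 ∧
      A.evalAt p' ((s : A.FA) * (D.npow (g * n ^ 2)).eqn (A.centre x.1)) ≠ 0 := fun w hw => by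
    obtain ⟨x, hx, hxc⟩ := exists_torsion_centre hn φ hφ hpp w (hfib w hw)
    refine ⟨⟨x, hx⟩, hxc, evalAt_ne_zero_of_relation p'
      (t := fun i => φ.comap (algebraMap _ A.FA (t i))) (fun i => ?_) ?_ (hΨ ⟨x, hx⟩) ?_⟩
    · refine φ.comap_mem_localRing ?_
      rw [← φ.centre_act, hφ, hpp, centre_map_algebraMap]
      exact C.mem_localRing i
    · exact A.localRing_mono (hxc ▸ A.centre_specializes_centreAt _ _ p') (s.2 _)
    · have hval : (fun i => A.evalAt p' (φ.comap (algebraMap _ A.FA (t i)))) =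
          fun i => IsScalarTower.toAlgHom K C.F F' (A.evalAt C.p (algebraMap _ A.FA (t i))) :=
        funext fun i => by
          rw [← φ.evalAt_act, hφ, hpp, A.evalAt_map _ _ (C.mem_localRing i)]
          rw [hφ, hpp, centre_map_algebraMap]
          exact C.mem_localRing i
      have hcomp := comp_aeval (fun i => A.evalAt C.p (algebraMap _ A.FA (t i)))
        (IsScalarTower.toAlgHom K C.F F')
      rw [hval, ← hcomp, AlgHom.comp_apply]
      exact (map_ne_zero _).mpr (C.aeval_evalAt_ne_zero (hwt.2 _ (Finset.mem_univ _)))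
  obtain ⟨w₀, hw₀⟩ := Curve.exists_restrict_eq F' C.v₀
  have h0 : A.evalAt p' ((s : A.FA) * (D.npow (g * n ^ 2)).eqn (A.centre p')) ≠ 0 := fun h0 => by
    obtain ⟨x, hxc, hx⟩ := hne w₀ (Place.mem_fiber.mpr hw₀)
    exact hx ((evalAt_section_eq_zero_iff (D.npow (g * n ^ 2)) p' (hxc ▸ A.centre_specializes_centreAt _ _ p')
      s.2).mp h0)
  have hord : ∀ w ∈ C.v₀.fiber F', ((g * BD + 1) * w.ramificationIndex C.F : ℕ) ≤
      w.ord (A.evalAt p' ((s : A.FA) * (D.npow (g * n ^ 2)).eqn (placeCentre p' w))) := fun w hw => by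
    obtain ⟨x, hxc, hx⟩ := hne w hw
    obtain ⟨σ, hσ, hσs⟩ := CartierDiv.exists_of_jetMap_eq_zero (h x.1 x.2)
    have hmem := evalAt_mem_ordGE_of_mem_pow p' w hxc _ (w.ramificationIndex C.F)
      (fun a ha => evalAt_mem_ordGE_ramificationIndex hn φ hφ hpp w (hfib w hw) x.2 hxc ha)
      (g * BD + 1) hσ
    rw [hσs] at hmem
    rw [hxc]
    exact Curve.le_ord_of_mem hmem hx
  have hle := ((Finset.sum_le_sum hord).trans
    (sum_ord_le_height (D.npow (g * n ^ 2)) p' s.2 h0 (C.v₀.fiber F'))).trans hh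
  have hsum := Curve.sum_ramificationIndex_mul_inertiaDeg_eq F' C.v₀
  simp only [Curve.inertiaDeg_eq_one, Nat.cast_one, mul_one] at hsum
  push_cast at hle
  rw [← Finset.mul_sum, hsum] at hle
  have hpos : 0 < Module.finrank C.F F' := Module.finrank_pos
  nlinarith

/-- **The lower bound.** -/
theorem exists_lower_const (hg : 0 < g) {t : Fin g → A.X.presheaf.stalk A.orig}
    (ht : IsCoordinates (K := K) t) :
    ∃ C : ℕ, ∀ n : ℕ, (n : K) ≠ 0 →
      n ^ (2 * g) ≤ C * Nat.card {x : A.Pt K // n • x = 0} := by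
  obtain ⟨R, bl, hbl, hcurve⟩ := exists_lineCurve A hg ht
  set ta : Fin g → A.FA := fun i => algebraMap _ A.FA (t i)
  obtain ⟨D, hD1, hDt, hDquad⟩ := exists_symmetric_div ta
  obtain ⟨BD, bD, hbD, hBD⟩ := exists_height_bound ht R D hD1
  refine ⟨(g * BD + g).choose g, fun n hn => ?_⟩
  have hline : ∀ w, eval w (bl * bD) ≠ 0 → ∃ C : LineCurve A t w R, height K D C.p ≤ BD := by
    intro w hw
    rw [map_mul, mul_ne_zero_iff] at hw
    obtain ⟨C⟩ := hcurve w hw.1
    exact ⟨C, hBD w hw.2 C⟩
  obtain ⟨φ, hφ⟩ := exists_nsmulEndo A n hn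
  have := finite_torsion hn φ hφ
  let ι := {x : A.Pt K // n • x = 0}
  have := Fintype.ofFinite ι
  have hjets : ∀ x : ι,
      Module.Finite K (A.X.presheaf.stalk (A.centre x.1) ⧸ maximalIdeal _ ^ (g * BD + 1)) ∧
      Module.finrank K (A.X.presheaf.stalk (A.centre x.1) ⧸ maximalIdeal _ ^ (g * BD + 1))
        ≤ (g * BD + g).choose g := fun x => by
    obtain ⟨hN, tx, htx⟩ := exists_isCoordinates A x.1
    exact htx.finite_jets (g * BD)
  have := fun x => (hjets x).1
  let Λ : (D.npow (g * n ^ 2)).sections →ₗ[K]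
      (∀ x : ι, A.X.presheaf.stalk (A.centre x.1) ⧸ maximalIdeal _ ^ (g * BD + 1)) :=
    LinearMap.pi fun x => CartierDiv.jetMap _ (A.centre x.1) (g * BD)
  have hΛ : LinearMap.ker Λ = ⊥ := LinearMap.ker_eq_bot'.mpr fun s hs =>
    eq_zero_of_jetMap_torsion ht (mul_ne_zero hbl hbD) D hDquad hline hn
      fun x hx => congrFun hs ⟨x, hx⟩
  have := (exists_isCoordinates A (0 : A.Pt K)).1
  have hv : LinearIndependent K fun j : Fin g → Fin (n ^ 2 + 1) =>
      (⟨boxMonomial ta (n ^ 2) j, boxMonomial_mem_sections hD1 hDt _ j⟩ :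
        (D.npow (g * n ^ 2)).sections) :=
    LinearIndependent.of_comp (D.npow (g * n ^ 2)).sections.subtype
      (linearIndependent_boxMonomial (aeval_coordinates_injective ht) _)
  have hcard := (hv.map' Λ hΛ).fintype_card_le_finrank
  rw [Fintype.card_fun, Fintype.card_fin, Fintype.card_fin, Module.finrank_pi_fintype] at hcard
  calc n ^ (2 * g) = (n ^ 2) ^ g := pow_mul n 2 g
    _ ≤ (n ^ 2 + 1) ^ g := Nat.pow_le_pow_left (Nat.le_succ _) g
    _ ≤ _ := hcard
    _ ≤ ∑ _x : ι, (g * BD + g).choose g := Finset.sum_le_sum fun x _ => (hjets x).2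
    _ = _ := by rw [Finset.sum_const, Finset.card_univ, ← Nat.card_eq_fintype_card, smul_eq_mul,
      mul_comm]

end FermatLib.AV.Tors
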