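import Fermat.Agent.AV.Tors.Count.HeightBound
import Fermat.Agent.AV.Tors.Geom.Endo
import Fermat.Agent.AV.Tors.Height.Quadratic

/-!
# Sections of multiples of a divisor and their jets

Monomials in functions which are sections of `D` are sections of the multiples of `D`; sections
are compared with their jets at a point.
-/

set_option autoImplicit false

noncomputable section

universe u

open CategoryTheory AlgebraicGeometry IsLocalRing AlgebraicCurve MvPolynomial

namespace FermatLib.AV.Tors

variable {K : Type u} [Field K] {g : ℕ} {A : AVData K g}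

namespace CartierDiv

theorem mul_mem_sections_npow {D : CartierDiv A} {i j : ℕ} {a b : A.FA}
    (ha : a ∈ (D.npow i).sections) (hb : b ∈ (D.npow j).sections) :
    a * b ∈ (D.npow (i + j)).sections := fun x => by
  rw [npow_eqn, pow_add, mul_mul_mul_comm, ← npow_eqn, ← npow_eqn]
  exact mul_mem (ha x) (hb x)

theorem one_mem_sections_npow {D : CartierDiv A} (h1 : (1 : A.FA) ∈ D.sections) (n : ℕ) :
    (1 : A.FA) ∈ (D.npow n).sections := fun x => by
  rw [one_mul, npow_eqn]
  exact pow_mem (by simpa using h1 x) n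

theorem sections_npow_mono {D : CartierDiv A} (h1 : (1 : A.FA) ∈ D.sections) {i j : ℕ}
    (h : i ≤ j) : (D.npow i).sections ≤ (D.npow j).sections := fun a ha => by
  obtain ⟨k, rfl⟩ := Nat.exists_eq_add_of_le h
  simpa using mul_mem_sections_npow ha (one_mem_sections_npow h1 k)

theorem pow_mem_sections_npow {D : CartierDiv A} {a : A.FA} (ha : a ∈ D.sections) (n : ℕ) :
    a ^ n ∈ (D.npow n).sections := fun x => by
  rw [npow_eqn, ← mul_pow]
  exact pow_mem (ha x) n

/-- Monomials of bounded degree are sections of the multiples. -/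
theorem prod_pow_mem_sections {ι : Type*} {D : CartierDiv A} (h1 : (1 : A.FA) ∈ D.sections)
    {t : ι → A.FA} (ht : ∀ i, t i ∈ D.sections) (s : Finset ι) (m : ι → ℕ) :
    ∏ i ∈ s, t i ^ m i ∈ (D.npow (∑ i ∈ s, m i)).sections := by
  classical
  induction s using Finset.induction_on with
  | empty => simpa using one_mem_sections_npow h1 0
  | insert a s ha ih =>
    rw [Finset.prod_insert ha, Finset.sum_insert ha]
    exact mul_mem_sections_npow (pow_mem_sections_npow (ht a) _) ih

/-- The equation at `x`, multiplied by a section, as an element of the local ring. -/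
def localSection (D : CartierDiv A) (x : A.X) : D.sections →ₗ[K] A.localRing x where
  toFun s := ⟨(s : A.FA) * D.eqn x, s.2 x⟩
  map_add' _ _ := Subtype.ext (add_mul _ _ _)
  map_smul' c a := Subtype.ext (smul_mul_assoc c (a : A.FA) (D.eqn x))

/-- The jet of order `N` of a section at `x`. -/
def jetMap (D : CartierDiv A) (x : A.X) (N : ℕ) :
    D.sections →ₗ[K] (A.X.presheaf.stalk x ⧸ maximalIdeal (A.X.presheaf.stalk x) ^ (N + 1)) :=
  (Ideal.Quotient.mkₐ K _).toLinearMap ∘ₗ (A.stalkEquiv x).symm.toLinearMap ∘ₗ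
    localSection D x

/-- A vanishing jet. -/
theorem exists_of_jetMap_eq_zero {D : CartierDiv A} {x : A.X} {N : ℕ} {s : D.sections}
    (h : jetMap D x N s = 0) :
    ∃ σ ∈ maximalIdeal (A.X.presheaf.stalk x) ^ (N + 1),
      algebraMap _ A.FA σ = (s : A.FA) * D.eqn x := by
  refine ⟨(A.stalkEquiv x).symm (localSection D x s), Ideal.Quotient.eq_zero_iff_mem.mp h, ?_⟩
  rw [← AVData.stalkEquiv_coe, AlgEquiv.apply_symm_apply]
  rfl

end CartierDiv

/-- The monomials with exponents in a box. -/
def boxMonomial (t : Fin g → A.FA) (m : ℕ) (j : Fin g → Fin (m + 1)) : A.FA :=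
  ∏ i, t i ^ (j i : ℕ)

theorem linearIndependent_boxMonomial {t : Fin g → A.FA}
    (ht : Function.Injective (aeval (R := K) t)) (m : ℕ) :
    LinearIndependent K (boxMonomial (A := A) t m) := by
  have hinj : Function.Injective fun j : Fin g → Fin (m + 1) =>
      Finsupp.equivFunOnFinite.symm fun i => (j i : ℕ) := fun a b h => funext fun i =>
    Fin.ext (congrFun (Finsupp.equivFunOnFinite.symm.injective h) i)
  have h := ((basisMonomials (Fin g) K).linearIndependent.comp _ hinj).map' (aeval (R := K) t).toLinearMap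
    (LinearMap.ker_eq_bot.mpr ht)
  have e : boxMonomial (A := A) t m = (aeval (R := K) t).toLinearMap ∘
      (basisMonomials (Fin g) K) ∘ fun j : Fin g → Fin (m + 1) =>
        Finsupp.equivFunOnFinite.symm fun i => (j i : ℕ) := funext fun j => by
    simp only [Function.comp_apply, coe_basisMonomials, AlgHom.toLinearMap_apply, aeval_monomial,
      map_one, one_mul, boxMonomial]
    rw [Finsupp.prod_fintype _ _ fun i => pow_zero _]
    rfl
  rw [e]
  exact h

theorem boxMonomial_mem_sections {D : CartierDiv A} (h1 : (1 : A.FA) ∈ D.sections)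
    {t : Fin g → A.FA} (ht : ∀ i, t i ∈ D.sections) (m : ℕ) (j : Fin g → Fin (m + 1)) :
    boxMonomial t m j ∈ (D.npow (g * m)).sections := by
  refine CartierDiv.sections_npow_mono h1 ?_
    (CartierDiv.prod_pow_mem_sections h1 ht Finset.univ fun i => (j i : ℕ))
  calc ∑ i, (j i : ℕ) ≤ ∑ _i : Fin g, m := Finset.sum_le_sum fun i _ => Nat.le_of_lt_succ (j i).2
    _ = g * m := by simp

theorem aeval_coordinates_injective [IsAlgClosed K] {x : A.X}
    [IsNoetherianRing (A.X.presheaf.stalk x)] {t : Fin g → A.X.presheaf.stalk x}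
    (ht : IsCoordinates (K := K) t) :
    Function.Injective (aeval (R := K) fun i => algebraMap _ A.FA (t i)) := by
  have := comp_aeval t (IsScalarTower.toAlgHom K (A.X.presheaf.stalk x) A.FA)
  rw [show (fun i => algebraMap _ A.FA (t i)) =
    fun i => IsScalarTower.toAlgHom K (A.X.presheaf.stalk x) A.FA (t i) from rfl, ← this]
  exact (IsFractionRing.injective (A.X.presheaf.stalk x) A.FA).comp ht.aeval_injective

variable [IsAlgClosed K]

/-- Every nonzero function has a relation with nonzero constant term over the images of the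
coordinates. -/
theorem exists_relation_comap {t : Fin g → A.X.presheaf.stalk A.orig}
    (ht : IsCoordinates (K := K) t) (φ : A.FA →ₐ[K] A.FA) {z : A.FA} (hz : z ≠ 0) :
    ∃ Ψ : Polynomial (MvPolynomial (Fin g) K), Ψ.coeff 0 ≠ 0 ∧
      Ψ.eval₂ (aeval (R := K) fun i => φ (algebraMap _ A.FA (t i))).toRingHom z = 0 := by
  have := (exists_isCoordinates A (0 : A.Pt K)).1
  set x : Fin g → A.FA := fun i => algebraMap _ A.FA (t i)
  set y : Fin g → A.FA := fun i => φ (x i)
  have hx : AlgebraicIndependent K x := aeval_coordinates_injective ht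
  have hy : AlgebraicIndependent K y := hx.map' φ.injective
  have halg : Algebra.IsAlgebraic (Algebra.adjoin K (Set.range x)) A.FA := ⟨fun w => by
    rcases eq_or_ne w 0 with rfl | hw
    · exact isAlgebraic_zero
    obtain ⟨Φ, hΦ, h⟩ := exists_relation_of_coordinates ht hw
    refine ⟨Φ.map hx.aevalEquiv.toAlgHom.toRingHom,
      (Polynomial.map_ne_zero_iff hx.aevalEquiv.injective).mpr fun h0 => hΦ (by simp [h0]), ?_⟩
    rw [Polynomial.aeval_def, Polynomial.eval₂_map]
    exact h⟩
  have hle : Cardinal.lift.{0} (Algebra.trdeg K A.FA) ≤ Cardinal.lift.{u} (Cardinal.mk (Fin g)) := by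
    refine le_trans (le_of_eq (Cardinal.lift_id' _)) ?_
    exact (Algebra.IsAlgebraic.trdeg_le_cardinalMk K (Set.range x)).trans (by simpa using Cardinal.mk_range_le_lift (f := x))
  have := (hy.isTranscendenceBasis_of_lift_trdeg_le_of_finite hle).isAlgebraic
  obtain ⟨Q, hQ, hQz⟩ := Algebra.IsAlgebraic.isAlgebraic (R := Algebra.adjoin K (Set.range y)) z
  refine exists_relation_coeff_zero_ne _ hz
    ((Polynomial.map_ne_zero_iff (f := hy.aevalEquiv.symm.toAlgHom.toRingHom)
      hy.aevalEquiv.symm.injective).mpr hQ) ?_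
  rw [Polynomial.eval₂_map]
  refine Eq.trans (congrArg (fun f => Q.eval₂ f z) (RingHom.ext fun a => ?_)) hQz
  obtain ⟨p, rfl⟩ := hy.aevalEquiv.surjective a
  show aeval y (hy.aevalEquiv.symm (hy.aevalEquiv p)) = _
  rw [AlgEquiv.symm_apply_apply]
  rfl

/-- An effective divisor with given sections and quadratic height. -/
theorem exists_symmetric_div (t : Fin g → A.FA) :
    ∃ D : CartierDiv A, (1 : A.FA) ∈ D.sections ∧ (∀ i, t i ∈ D.sections) ∧
      ∀ (F : Type u) [Field F] [Algebra K F] [Curve.IsFunctionField K F] (p : A.Pt F) (n : ℕ),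
        height K D (n • p) = (n : ℤ) ^ 2 * height K D p := by
  obtain ⟨D₀, h1, hi⟩ := exists_cartierDiv A (fun i : ULift.{u} (Fin g) => t i.down)
  obtain ⟨φ, hφ⟩ := exists_negEndo A
  have h1' : (1 : A.FA) ∈ (D₀.comap φ).sections := by
    simpa using CartierDiv.comap_mem_sections φ h1
  refine ⟨D₀ * D₀.comap φ, ?_, fun i => ?_, fun F _ _ _ p n => height_nsmul D₀ φ hφ p n⟩
  · simpa using CartierDiv.mul_mem_sections h1 h1'
  · simpa using CartierDiv.mul_mem_sections (hi ⟨i⟩) h1'

end FermatLib.AV.Tors
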