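import Fermat.Agent.AV.Tors.Count.Sections

/-!
# The upper bound for the number of torsion points

Monomials in the coordinates, pulled back by `[n]`, times elements independent over the image of
`[n]`, are sections of a divisor all of whose nonzero sections have a jet of bounded order at the
origin.
-/

set_option autoImplicit false

noncomputable section

universe u

open CategoryTheory AlgebraicGeometry IsLocalRing AlgebraicCurve MvPolynomial

namespace FermatLib.AV.Tors

variable {K : Type u} [Field K] [IsAlgClosed K] {g : ℕ} {A : AVData K g}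

/-- A section whose jet at the origin is of order above the height of general line curves is
zero. -/
theorem eq_zero_of_jetMap_orig {t : Fin g → A.X.presheaf.stalk A.orig}
    (ht : IsCoordinates (K := K) t) {R B : ℕ} {b : MvPolynomial (Fin g) K} (hb : b ≠ 0)
    (D : CartierDiv A)
    (hline : ∀ w, eval w b ≠ 0 → ∃ C : LineCurve A t w R, height K D C.p ≤ B)
    {s : D.sections} (h : CartierDiv.jetMap D A.orig B s = 0) : s = 0 := by
  obtain ⟨σ, hσ, hσs⟩ := CartierDiv.exists_of_jetMap_eq_zero h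
  by_contra hs0
  have hz : (s : A.FA) * D.eqn A.orig ≠ 0 :=
    mul_ne_zero (fun h0 => hs0 (Subtype.ext h0)) (D.eqn_ne_zero _)
  obtain ⟨Ψ, hΨ0, hΨ⟩ := exists_relation_of_coordinates ht hz
  obtain ⟨w, hw⟩ := exists_eval_ne_zero (mul_ne_zero hb hΨ0)
  rw [map_mul, mul_ne_zero_iff] at hw
  obtain ⟨C, hC⟩ := hline w hw.1
  have hne : A.evalAt C.p ((s : A.FA) * D.eqn A.orig) ≠ 0 :=
    evalAt_ne_zero_of_relation C.p C.mem_localRing (A.localRing_mono C.specializes (s.2 _)) hΨ
      (C.aeval_evalAt_ne_zero hw.2)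
  have h0 : A.evalAt C.p ((s : A.FA) * D.eqn (A.centre C.p)) ≠ 0 := fun h0 =>
    hne ((evalAt_section_eq_zero_iff D C.p C.specializes s.2).mp h0)
  have hle := (sum_ord_le_height D C.p s.2 h0 {C.v₀}).trans hC
  rw [Finset.sum_singleton, C.placeCentre_eq] at hle
  have hmem := evalAt_mem_ordGE_of_mem_pow C.p C.v₀ C.placeCentre_eq
    (maximalIdeal (A.X.presheaf.stalk A.orig)) 1
    (fun a ha => by simpa using evalAt_mem_ordGE_one C.p C.v₀ C.placeCentre_eq ha) (B + 1) hσ
  rw [hσs] at hmem
  have := Curve.le_ord_of_mem hmem hne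
  push_cast at this
  omega

/-- A divisor and constants for the counting. -/
theorem exists_upper_const (hg : 0 < g) {t : Fin g → A.X.presheaf.stalk A.orig}
    (ht : IsCoordinates (K := K) t) :
    ∃ C : ℕ, ∀ n : ℕ, (n : K) ≠ 0 →
      Nat.card {x : A.Pt K // n • x = 0} ≤ C * n ^ (2 * g) := by
  obtain ⟨R, bl, hbl, hcurve⟩ := exists_lineCurve A hg ht
  set ta : Fin g → A.FA := fun i => algebraMap _ A.FA (t i)
  obtain ⟨D, hD1, hDt, hDquad⟩ := exists_symmetric_div ta
  obtain ⟨BD, bD, hbD, hBD⟩ := exists_height_bound ht R D hD1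
  refine ⟨(g * BD + 1) ^ g, fun n hn => ?_⟩
  have hn0 : 1 ≤ n := Nat.one_le_iff_ne_zero.mpr fun h => hn (by simp [h])
  obtain ⟨φ, hφ⟩ := exists_nsmulEndo A n hn
  have := finite_torsion hn φ hφ
  obtain ⟨e, he⟩ := exists_linearIndependent_over_comap hn φ hφ
  obtain ⟨E, hE1, hEe⟩ := exists_cartierDiv A e
  obtain ⟨BE, bE, hbE, hBE⟩ := exists_height_bound ht R E hE1
  set m := BE + g with hm
  set D' : CartierDiv A := E * (D.npow (g * m)).comap φ
  set B : ℕ := BE + g * m * n ^ 2 * BD with hB
  have := (exists_isCoordinates A (0 : A.Pt K)).1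
  obtain ⟨hfin, hjets⟩ := ht.finite_jets B
  -- the bound on the curves
  have hline : ∀ w, eval w (bl * bD * bE) ≠ 0 →
      ∃ C : LineCurve A t w R, height K D' C.p ≤ B := by
    intro w hw
    simp only [map_mul, mul_ne_zero_iff] at hw
    obtain ⟨C⟩ := hcurve w hw.1.1
    refine ⟨C, ?_⟩
    rw [height_mul, height_comap, height_npow, hφ, hDquad]
    have h1 := hBE w hw.2 C
    have h2 := mul_le_mul_of_nonneg_left (hBD w hw.1.2 C)
      (show (0 : ℤ) ≤ ((g * m : ℕ) : ℤ) * (n : ℤ) ^ 2 by positivity)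
    rw [hB]
    push_cast at h2 ⊢
    linarith
  -- the independent sections
  let v : (Fin g → Fin (m + 1)) × {x : A.Pt K // n • x = 0} → A.FA :=
    fun q => φ.comap (boxMonomial ta m q.1) * e q.2
  have hv : LinearIndependent K v := by
    have hb : LinearIndependent K fun j : Fin g → Fin (m + 1) =>
        (⟨φ.comap (boxMonomial ta m j), boxMonomial ta m j, rfl⟩ : φ.comap.fieldRange) := by
      refine LinearIndependent.of_comp φ.comap.fieldRange.val.toLinearMap ?_
      exact (linearIndependent_boxMonomial (aeval_coordinates_injective ht) m).map'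
        φ.comap.toLinearMap (LinearMap.ker_eq_bot.mpr φ.comap.injective)
    exact linearIndependent_smul hb he
  have hvmem : ∀ q, v q ∈ D'.sections := fun q => by
    show φ.comap _ * e q.2 ∈ _
    rw [mul_comm]
    exact CartierDiv.mul_mem_sections (hEe q.2)
      (CartierDiv.comap_mem_sections φ (boxMonomial_mem_sections hD1 hDt m q.1))
  have hv' : LinearIndependent K fun q => (⟨v q, hvmem q⟩ : D'.sections) :=
    LinearIndependent.of_comp D'.sections.subtype hv
  have hinj : LinearMap.ker (CartierDiv.jetMap D' A.orig B) = ⊥ :=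
    LinearMap.ker_eq_bot'.mpr fun s hs =>
      eq_zero_of_jetMap_orig ht (mul_ne_zero (mul_ne_zero hbl hbD) hbE) D' hline hs
  have := Fintype.ofFinite {x : A.Pt K // n • x = 0}
  have hcard := ((hv'.map' _ hinj).fintype_card_le_finrank).trans hjets
  rw [Fintype.card_prod, Fintype.card_fun, Fintype.card_fin, Fintype.card_fin,
    ← Nat.card_eq_fintype_card] at hcard
  set d := Nat.card {x : A.Pt K // n • x = 0}
  -- the arithmetic
  have h1 : B + g ≤ (m + 1) * (n ^ 2 * (g * BD + 1)) := by
    have hn2 : 1 ≤ n ^ 2 := Nat.one_le_pow _ _ hn0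
    calc B + g = m * 1 + g * m * n ^ 2 * BD := by rw [hB, hm]; ring
      _ ≤ m * n ^ 2 + g * m * n ^ 2 * BD := by gcongr
      _ = m * (n ^ 2 * (g * BD + 1)) := by ring
      _ ≤ _ := Nat.mul_le_mul_right _ (Nat.le_succ m)
  have h2 : (m + 1) ^ g * d ≤ (m + 1) ^ g * ((g * BD + 1) ^ g * n ^ (2 * g)) :=
    calc (m + 1) ^ g * d ≤ (B + g).choose g := hcard
      _ ≤ (B + g) ^ g := Nat.choose_le_pow _ _
      _ ≤ ((m + 1) * (n ^ 2 * (g * BD + 1))) ^ g := Nat.pow_le_pow_left h1 g
      _ = _ := by rw [mul_pow, mul_pow, ← pow_mul]; ring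
  exact Nat.le_of_mul_le_mul_left h2 (by positivity)

end FermatLib.AV.Tors
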